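import Fermat.Agent.Lib.EC.Reduction.SlopeVal

set_option autoImplicit false

/-!
# The reduction map of a Weierstrass curve modulo a valuation subring

`K` is a field, `A` a valuation subring of `K`, `k` a field and `π : A →+* k` a local ring
homomorphism (for instance the residue map of `A`, possibly followed by a field embedding).
`W₀` is a Weierstrass curve over `A`; we write `W_K = W₀.map A.subtype` and `W_k = W₀.map π`.

We define `red π W_K W_k : W_K.Point → W_k.Point` (affine points with integral coordinates whose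
reduction is a nonsingular point are reduced coordinatewise, all other points are sent to `0`)
and prove that it is additive on the subgroup `E₀` of points with nonsingular reduction, with
kernel the kernel of reduction `KerRed A`.  When `W_k` has nonzero discriminant, `E₀` is
everything and we get a group homomorphism `redHom`.
-/

namespace Fermat.Agent.Lib.EC

open WeierstrassCurve WeierstrassCurve.Affine

section Res

variable {K : Type*} [Field K] {A : ValuationSubring K} {k : Type*} [Field k] (π : A →+* k)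

open Classical in
/-- The residue map `π` extended by `0` outside the valuation subring. -/
noncomputable def res (x : K) : k := if h : x ∈ A then π ⟨x, h⟩ else 0

theorem res_of_mem {x : K} (h : x ∈ A) : res π x = π ⟨x, h⟩ := dif_pos h

theorem res_of_not_mem {x : K} (h : x ∉ A) : res π x = 0 := dif_neg h

@[simp] theorem res_coe (a : A) : res π (a : K) = π a := res_of_mem π a.2

@[simp] theorem res_subtype (a : A) : res π (A.subtype a) = π a := res_of_mem π a.2

variable [IsLocalHom π]

theorem pi_eq_zero_iff (a : A) : π a = 0 ↔ A.valuation (a : K) < 1 := by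
  rw [← A.valuation_lt_one_iff, IsLocalRing.mem_maximalIdeal, mem_nonunits_iff,
    ← isUnit_map_iff π a, isUnit_iff_ne_zero, not_not]

theorem pi_ne_zero_iff (a : A) : π a ≠ 0 ↔ A.valuation (a : K) = 1 := by
  rw [Ne, pi_eq_zero_iff, not_lt]
  exact ⟨fun h => le_antisymm (A.valuation_le_one a) h, fun h => h.ge⟩

theorem pi_eq_iff (a b : A) : π a = π b ↔ A.valuation ((a : K) - b) < 1 := by
  rw [← sub_eq_zero, ← map_sub, pi_eq_zero_iff]
  rfl

theorem res_eq_iff {x y : K} (hx : x ∈ A) (hy : y ∈ A) :
    res π x = res π y ↔ A.valuation (x - y) < 1 := by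
  rw [res_of_mem π hx, res_of_mem π hy, pi_eq_iff]

end Res

section Core

variable {K : Type*} [Field K] [DecidableEq K] {A : ValuationSubring K} {k : Type*} [Field k]
  [DecidableEq k] (π : A →+* k) [IsLocalHom π] (W₀ : WeierstrassCurve A)

omit [DecidableEq K] in
/-- The generic fibre of a Weierstrass curve over `A` has integral coefficients. -/
theorem isIntegralOver_map : IsIntegralOver A (W₀.map A.subtype).toAffine :=
  ⟨W₀.a₁.2, W₀.a₂.2, W₀.a₃.2, W₀.a₄.2, W₀.a₆.2⟩

omit [DecidableEq K] [DecidableEq k] [IsLocalHom π] in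
/-- Reduction of the Weierstrass equation. -/
theorem equation_pi {x y : A}
    (h : (W₀.map A.subtype).toAffine.Equation (A.subtype x) (A.subtype y)) :
    (W₀.map π).toAffine.Equation (π x) (π y) :=
  ((W₀.toAffine.map_equation A.subtype_injective x y).mp h).map π

/-- **The slope lifts.** If two integral points do not reduce to opposite points, the slope of
the line through them is integral and reduces to the slope of the line through the reductions. -/
theorem slope_lift {x1 y1 x2 y2 : A}
    (h1 : (W₀.map A.subtype).toAffine.Equation (A.subtype x1) (A.subtype y1))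
    (h2 : (W₀.map A.subtype).toAffine.Equation (A.subtype x2) (A.subtype y2))
    (hxy : ¬(π x1 = π x2 ∧ π y1 = (W₀.map π).toAffine.negY (π x2) (π y2))) :
    ∃ L : A, A.subtype L =
        (W₀.map A.subtype).toAffine.slope (A.subtype x1) (A.subtype x2) (A.subtype y1)
          (A.subtype y2) ∧
      π L = (W₀.map π).toAffine.slope (π x1) (π x2) (π y1) (π y2) := by
  have e1 := equation_pi π W₀ h1
  have e2 := equation_pi π W₀ h2
  by_cases hx : π x1 = π x2
  · have hy : π y1 ≠ (W₀.map π).toAffine.negY (π x2) (π y2) := fun h => hxy ⟨hx, h⟩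
    have hπd : π (y1 - W₀.toAffine.negY x2 y2) =
        π y1 - (W₀.map π).toAffine.negY (π x2) (π y2) := by
      rw [map_sub, map_negY]
    have hd_unit : IsUnit (y1 - W₀.toAffine.negY x2 y2) := by
      rw [← isUnit_map_iff π, hπd]
      exact IsUnit.mk0 _ (sub_ne_zero.mpr hy)
    obtain ⟨u, hu⟩ := hd_unit
    have hφd : A.subtype (y1 - W₀.toAffine.negY x2 y2) =
        A.subtype y1 - (W₀.map A.subtype).toAffine.negY (A.subtype x2) (A.subtype y2) := by
      rw [map_sub, map_negY]
    have hd0 : A.subtype y1 - (W₀.map A.subtype).toAffine.negY (A.subtype x2) (A.subtype y2)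
        ≠ 0 := by
      rw [← hφd, ← hu]
      exact fun h0 => u.ne_zero (A.subtype_injective (by rw [h0, map_zero]))
    refine ⟨(x1 ^ 2 + x1 * x2 + x2 ^ 2 + W₀.a₂ * (x1 + x2) + W₀.a₄ - W₀.a₁ * y1) * ↑u⁻¹, ?_, ?_⟩
    · rw [Kernel.slope_eq_alt h1 h2 hd0, ← hφd, ← hu, eq_div_iff (by
        exact fun h0 => u.ne_zero (A.subtype_injective (by rw [h0, map_zero]))), ← map_mul,
        mul_assoc, Units.inv_mul, mul_one]
      simp only [map_sub, map_add, map_mul, map_pow, map_a₁, map_a₂, map_a₄]
    · have hyy : π y1 = π y2 := Y_eq_of_Y_ne e1 e2 hx hy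
      rw [slope_of_Y_ne hx hy, map_mul, eq_div_iff (by
        rw [← hx, ← hyy] at hy; exact sub_ne_zero.mpr hy)]
      have hπu : π ↑u⁻¹ * (π y1 - (W₀.map π).toAffine.negY (π x1) (π y1)) = 1 := by
        rw [← hx, ← hyy] at hπd
        rw [← hπd, ← hu, ← map_mul, Units.inv_mul, map_one]
      rw [mul_assoc, hπu, mul_one]
      simp only [map_sub, map_add, map_mul, map_pow, map_a₁, map_a₂, map_a₄, ← hx]
      ring
  · have he_unit : IsUnit (x1 - x2) := by
      rw [← isUnit_map_iff π, map_sub]
      exact IsUnit.mk0 _ (sub_ne_zero.mpr hx)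
    obtain ⟨u, hu⟩ := he_unit
    have hxK : A.subtype x1 ≠ A.subtype x2 := fun h => hx (by rw [A.subtype_injective h])
    refine ⟨(y1 - y2) * ↑u⁻¹, ?_, ?_⟩
    · rw [slope_of_X_ne hxK, eq_div_iff (sub_ne_zero.mpr hxK), ← map_sub, ← map_sub, ← map_mul,
        ← hu, mul_assoc, Units.inv_mul, mul_one]
    · rw [slope_of_X_ne hx, eq_div_iff (sub_ne_zero.mpr hx), ← map_sub, ← map_sub, ← map_mul,
        ← hu, mul_assoc, Units.inv_mul, mul_one]

/-- **The sum lifts.** If two integral points do not reduce to opposite points, the coordinates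
of their sum are integral and reduce to the coordinates of the sum of the reductions. -/
theorem add_lift {x1 y1 x2 y2 : A}
    (h1 : (W₀.map A.subtype).toAffine.Equation (A.subtype x1) (A.subtype y1))
    (h2 : (W₀.map A.subtype).toAffine.Equation (A.subtype x2) (A.subtype y2))
    (hxy : ¬(π x1 = π x2 ∧ π y1 = (W₀.map π).toAffine.negY (π x2) (π y2))) :
    ∃ x3 y3 : A,
      A.subtype x3 = (W₀.map A.subtype).toAffine.addX (A.subtype x1) (A.subtype x2)
        ((W₀.map A.subtype).toAffine.slope (A.subtype x1) (A.subtype x2) (A.subtype y1)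
          (A.subtype y2)) ∧
      A.subtype y3 = (W₀.map A.subtype).toAffine.addY (A.subtype x1) (A.subtype x2)
        (A.subtype y1) ((W₀.map A.subtype).toAffine.slope (A.subtype x1) (A.subtype x2)
          (A.subtype y1) (A.subtype y2)) ∧
      π x3 = (W₀.map π).toAffine.addX (π x1) (π x2)
        ((W₀.map π).toAffine.slope (π x1) (π x2) (π y1) (π y2)) ∧
      π y3 = (W₀.map π).toAffine.addY (π x1) (π x2) (π y1)
        ((W₀.map π).toAffine.slope (π x1) (π x2) (π y1) (π y2)) := by
  obtain ⟨L, hL1, hL2⟩ := slope_lift π W₀ h1 h2 hxy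
  refine ⟨W₀.toAffine.addX x1 x2 L, W₀.toAffine.addY x1 x2 y1 L, ?_, ?_, ?_, ?_⟩
  · rw [← hL1, map_addX]
  · rw [← hL1, map_addY]
  · rw [← hL2, map_addX]
  · rw [← hL2, map_addY]

end Core

section Red

variable {K : Type*} [Field K] {A : ValuationSubring K} {k : Type*} [Field k] (π : A →+* k)

/-- Congruence for the constructor `Point.some`. -/
theorem some_congr {F : Type*} [CommRing F] {W : Affine F} {x y x' y' : F}
    (h : W.Nonsingular x y) (hx : x = x') (hy : y = y') (h' : W.Nonsingular x' y') :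
    Point.some x y h = Point.some x' y' h' := by
  subst hx hy; rfl

open Classical in
/-- The reduction map on points: an affine point with integral coordinates whose coordinatewise
reduction is a nonsingular point of `Wk` is sent to that point; every other point is sent to
`0`. -/
noncomputable def red (W : Affine K) (Wk : Affine k) : W.Point → Wk.Point
  | .zero => 0
  | .some x y _ =>
    if h : Wk.Nonsingular (res π x) (res π y) ∧ x ∈ A ∧ y ∈ A then .some _ _ h.1 else 0

/-- The points with nonsingular reduction: `0`, the affine points with non-integral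
`x`-coordinate, and the integral affine points whose reduction is a nonsingular point. -/
def IsE0 (W : Affine K) (Wk : Affine k) : W.Point → Prop
  | .zero => True
  | .some x y _ => x ∈ A → Wk.Nonsingular (res π x) (res π y)

variable {W : Affine K} {Wk : Affine k}

@[simp] theorem red_zero : red π W Wk 0 = 0 := rfl

@[simp] theorem isE0_zero : IsE0 π W Wk 0 := trivial

theorem isE0_some {x y : K} (h : W.Nonsingular x y) :
    IsE0 π W Wk (Point.some x y h) ↔ (x ∈ A → Wk.Nonsingular (res π x) (res π y)) := Iff.rfl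

theorem red_some_of_mem {x y : K} (h : W.Nonsingular x y) (hx : x ∈ A) (hy : y ∈ A)
    (hns : Wk.Nonsingular (res π x) (res π y)) :
    red π W Wk (Point.some x y h) = Point.some _ _ hns := dif_pos ⟨hns, hx, hy⟩

theorem red_some_of_not_mem {x y : K} (h : W.Nonsingular x y) (hx : x ∉ A) :
    red π W Wk (Point.some x y h) = 0 := dif_neg fun hh => hx hh.2.1

theorem red_some_of_not_nonsingular {x y : K} (h : W.Nonsingular x y)
    (hns : ¬ Wk.Nonsingular (res π x) (res π y)) :
    red π W Wk (Point.some x y h) = 0 := dif_neg fun hh => hns hh.1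

/-- The kernel of reduction is sent to `0`. -/
theorem red_of_kerRed {P : W.Point} (hP : KerRed A P) : red π W Wk P = 0 := by
  rcases P with _ | ⟨x, y, h⟩
  · rfl
  · exact red_some_of_not_mem π h hP

/-- The kernel of reduction consists of points with nonsingular reduction. -/
theorem isE0_of_kerRed {P : W.Point} (hP : KerRed A P) : IsE0 π W Wk P := by
  rcases P with _ | ⟨x, y, h⟩
  · trivial
  · exact fun hx => absurd hx hP

/-- On points with nonsingular reduction, the reduction map vanishes exactly on the kernel of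
reduction. -/
theorem red_eq_zero_iff (hW : IsIntegralOver A W) {P : W.Point} (hP : IsE0 π W Wk P) :
    red π W Wk P = 0 ↔ KerRed A P := by
  refine ⟨fun h0 => ?_, red_of_kerRed π⟩
  rcases P with _ | ⟨x, y, h⟩
  · trivial
  · by_contra hx
    rw [kerRed_some, not_not] at hx
    have hy : y ∈ A := by
      by_contra hy
      exact ((kerRed_some_iff_y hW h).mpr hy) hx
    rw [red_some_of_mem π h hx hy (hP hx)] at h0
    exact Point.some_ne_zero _ h0

end Red

section Mixed

variable {K : Type*} [Field K] [DecidableEq K] {A : ValuationSubring K} {k : Type*} [Field k]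
  (π : A →+* k) [IsLocalHom π] {W : Affine K} {Wk : Affine k}

/-- Adding a point of the kernel of reduction does not change the reduction. -/
theorem red_add_of_kerRed_left (hW : IsIntegralOver A W) {P Q : W.Point} (hP : KerRed A P)
    (hQ : IsE0 π W Wk Q) :
    IsE0 π W Wk (P + Q) ∧ red π W Wk (P + Q) = red π W Wk Q := by
  by_cases hQ1 : KerRed A Q
  · have h := kerRed_add hW hP hQ1
    exact ⟨isE0_of_kerRed π h, by rw [red_of_kerRed π h, red_of_kerRed π hQ1]⟩
  rcases P with _ | ⟨x1, y1, h1⟩
  · rw [← Point.zero_def, zero_add]; exact ⟨hQ, rfl⟩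
  rcases Q with _ | ⟨x2, y2, h2⟩
  · exact absurd (kerRed_zero A) hQ1
  rw [kerRed_some, not_not] at hQ1
  rw [kerRed_some] at hP
  have hI := hW.isIntegralAt
  have hy2 : y2 ∈ A := by
    by_contra hy
    exact ((kerRed_some_iff_y hW h2).mpr hy) hQ1
  have n2 := hQ hQ1
  -- the sum `R` is not in the kernel of reduction
  have hR1 : ¬ KerRed A (Point.some x1 y1 h1 + Point.some x2 y2 h2) := by
    intro hR
    have := kerRed_sub hW hR (P := Point.some x1 y1 h1 + Point.some x2 y2 h2)
      (Q := Point.some x1 y1 h1) hP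
    rw [add_sub_cancel_left] at this
    exact this hQ1
  -- `P = R - Q`
  have hPR : Point.some x1 y1 h1 =
      (Point.some x1 y1 h1 + Point.some x2 y2 h2) + -Point.some x2 y2 h2 := by
    rw [add_neg_cancel_right]
  generalize Point.some x1 y1 h1 + Point.some x2 y2 h2 = R at hR1 hPR ⊢
  rcases R with _ | ⟨x3, y3, h3⟩
  · exact absurd (kerRed_zero A) hR1
  rw [kerRed_some, not_not] at hR1
  have hy3 : y3 ∈ A := by
    by_contra hy
    exact ((kerRed_some_iff_y hW h3).mpr hy) hR1
  rw [Point.neg_some] at hPR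
  have hxy : ¬(x3 = x2 ∧ y3 = W.negY x2 (W.negY x2 y2)) := by
    intro hxy
    rw [Point.add_of_Y_eq hxy.1 hxy.2] at hPR
    exact Point.some_ne_zero _ hPR
  rw [Point.add_some hxy, Point.some.injEq] at hPR
  have hx1 : 1 < A.valuation (W.addX x3 x2 (W.slope x3 x2 y3 (W.negY x2 y2))) := by
    rw [← hPR.1, ← not_le, A.valuation_le_one_iff]
    exact hP
  have hv3 : A.valuation x3 ≤ 1 := (A.valuation_le_one_iff _).mpr hR1
  have hv2 : A.valuation x2 ≤ 1 := (A.valuation_le_one_iff _).mpr hQ1
  have hvy3 : A.valuation y3 ≤ 1 := (A.valuation_le_one_iff _).mpr hy3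
  have hny2 : A.valuation (W.negY x2 y2) ≤ 1 := by
    simp only [negY]
    refine Valuation.map_sub_le _ (Valuation.map_sub_le _ ?_ ?_) hI.a₃
    · rw [Valuation.map_neg]; exact (A.valuation_le_one_iff _).mpr hy2
    · exact Kernel.val_mul_le_of_le_one _ hI.a₁ hv2
  rw [Kernel.one_lt_val_addX_iff _ hI hv3 hv2] at hx1
  obtain ⟨r1, r2⟩ := Kernel.val_lt_one_of_one_lt_val_slope _ hI h3.left
    ((equation_neg x2 y2).mpr h2.left) hv3 hvy3 hv2 hny2 hxy hx1
  rw [negY_negY] at r2
  have ex : res π x3 = res π x2 := (res_eq_iff π hR1 hQ1).mpr r1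
  have ey : res π y3 = res π y2 := (res_eq_iff π hy3 hy2).mpr r2
  have n3 : Wk.Nonsingular (res π x3) (res π y3) := by rw [ex, ey]; exact n2
  refine ⟨fun _ => n3, ?_⟩
  rw [red_some_of_mem π h3 hR1 hy3 n3, red_some_of_mem π h2 hQ1 hy2 n2]
  exact some_congr _ ex ey _

end Mixed

section Main

variable {K : Type*} [Field K] [DecidableEq K] {A : ValuationSubring K} {k : Type*} [Field k]
  [DecidableEq k] (π : A →+* k) [IsLocalHom π] (W₀ : WeierstrassCurve A)

omit [DecidableEq K] [DecidableEq k] [IsLocalHom π] in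
/-- The reduction map on integral points, in lifted form. -/
theorem red_subtype {x y : A}
    (h : (W₀.map A.subtype).toAffine.Nonsingular (A.subtype x) (A.subtype y))
    (hns : (W₀.map π).toAffine.Nonsingular (π x) (π y)) :
    red π (W₀.map A.subtype).toAffine (W₀.map π).toAffine (Point.some _ _ h) =
      Point.some _ _ hns := by
  have hns' : (W₀.map π).toAffine.Nonsingular (res π (A.subtype x)) (res π (A.subtype y)) := by
    rw [res_subtype, res_subtype]; exact hns
  rw [red_some_of_mem π h x.2 y.2 hns']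
  exact some_congr _ (res_subtype π x) (res_subtype π y) _

/-- Sum of two integral points whose reductions are nonsingular and not opposite. -/
theorem red_add_of_ne {x1 y1 x2 y2 : A}
    (h1 : (W₀.map A.subtype).toAffine.Nonsingular (A.subtype x1) (A.subtype y1))
    (h2 : (W₀.map A.subtype).toAffine.Nonsingular (A.subtype x2) (A.subtype y2))
    (n1 : (W₀.map π).toAffine.Nonsingular (π x1) (π y1))
    (n2 : (W₀.map π).toAffine.Nonsingular (π x2) (π y2))
    (hxy' : ¬(π x1 = π x2 ∧ π y1 = (W₀.map π).toAffine.negY (π x2) (π y2))) :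
    IsE0 π (W₀.map A.subtype).toAffine (W₀.map π).toAffine
        (Point.some _ _ h1 + Point.some _ _ h2) ∧
      red π (W₀.map A.subtype).toAffine (W₀.map π).toAffine
        (Point.some _ _ h1 + Point.some _ _ h2) = Point.some _ _ n1 + Point.some _ _ n2 := by
  have hxy : ¬(A.subtype x1 = A.subtype x2 ∧
      A.subtype y1 = (W₀.map A.subtype).toAffine.negY (A.subtype x2) (A.subtype y2)) := by
    rintro ⟨hx, hy⟩
    apply hxy'
    have hx' : x1 = x2 := A.subtype_injective hx
    have hy' : y1 = W₀.toAffine.negY x2 y2 := A.subtype_injective (by rw [hy, map_negY])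
    exact ⟨by rw [hx'], by rw [hy', map_negY]⟩
  obtain ⟨x3, y3, e1, e2, e3, e4⟩ := add_lift π W₀ h1.left h2.left hxy'
  rw [Point.add_some hxy, Point.add_some hxy']
  have h3 : (W₀.map A.subtype).toAffine.Nonsingular (A.subtype x3) (A.subtype y3) := by
    rw [e1, e2]; exact nonsingular_add h1 h2 hxy
  have n3 : (W₀.map π).toAffine.Nonsingular (π x3) (π y3) := by
    rw [e3, e4]; exact nonsingular_add n1 n2 hxy'
  rw [some_congr (nonsingular_add h1 h2 hxy) e1.symm e2.symm h3, red_subtype π W₀ h3 n3]
  refine ⟨fun _ => ?_, some_congr _ e3 e4 _⟩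
  rw [res_subtype, res_subtype]; exact n3

omit [DecidableEq k] in
/-- Sum of two integral points which reduce to opposite nonsingular points. -/
theorem kerRed_add_of_eq {x1 y1 x2 y2 : A}
    (h1 : (W₀.map A.subtype).toAffine.Nonsingular (A.subtype x1) (A.subtype y1))
    (h2 : (W₀.map A.subtype).toAffine.Nonsingular (A.subtype x2) (A.subtype y2))
    (n1 : (W₀.map π).toAffine.Nonsingular (π x1) (π y1))
    (hx : π x1 = π x2) (hy : π y1 = (W₀.map π).toAffine.negY (π x2) (π y2)) :
    KerRed A (Point.some _ _ h1 + Point.some _ _ h2) := by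
  by_cases hxy : A.subtype x1 = A.subtype x2 ∧
      A.subtype y1 = (W₀.map A.subtype).toAffine.negY (A.subtype x2) (A.subtype y2)
  · rw [Point.add_of_Y_eq hxy.1 hxy.2]; trivial
  have hI := (isIntegralOver_map W₀).isIntegralAt
  have hv1 : A.valuation (A.subtype x1) ≤ 1 := A.valuation_le_one x1
  have hv2 : A.valuation (A.subtype x2) ≤ 1 := A.valuation_le_one x2
  rw [Point.add_some hxy, kerRed_some, ← A.valuation_le_one_iff, not_le,
    Kernel.one_lt_val_addX_iff _ hI hv1 hv2]
  have hxx : A.valuation (A.subtype x1 - A.subtype x2) < 1 := (pi_eq_iff π x1 x2).mp hx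
  have hyy : A.valuation (A.subtype y1 -
      (W₀.map A.subtype).toAffine.negY (A.subtype x2) (A.subtype y2)) < 1 := by
    rw [map_negY]
    exact (pi_eq_iff π y1 (W₀.toAffine.negY x2 y2)).mp (by rw [hy, map_negY])
  refine Kernel.one_lt_val_slope_of_red_eq_neg _ hI h1.left h2.left hv1 hv2 hxx hyy ?_ hxy
  have hn := ((nonsingular_iff' _ _).mp n1).2
  rcases hn with hn | hn
  · left
    have e : (W₀.map π).toAffine.a₁ * π y1 -
        (3 * π x1 ^ 2 + 2 * (W₀.map π).toAffine.a₂ * π x1 + (W₀.map π).toAffine.a₄) =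
        π (W₀.a₁ * y1 - (3 * x1 ^ 2 + 2 * W₀.a₂ * x1 + W₀.a₄)) := by
      simp only [map_sub, map_add, map_mul, map_pow, map_a₁, map_a₂, map_a₄, map_ofNat]
    rw [e, pi_ne_zero_iff] at hn
    rw [← hn]
    congr 1
  · right
    have e : 2 * π y1 + (W₀.map π).toAffine.a₁ * π x1 + (W₀.map π).toAffine.a₃ =
        π (y1 - W₀.toAffine.negY x1 y1) := by
      simp only [negY, map_sub, map_mul, map_neg, map_a₁, map_a₃]
      ring
    rw [e, pi_ne_zero_iff] at hn
    rw [← hn, map_negY, ← map_sub]
    rfl

omit [DecidableEq K] [DecidableEq k] [IsLocalHom π] in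
/-- An integral affine point of the generic fibre, in lifted form. -/
theorem exists_lift_of_mem {x y : K} (h : (W₀.map A.subtype).toAffine.Nonsingular x y)
    (hx : x ∈ A) : ∃ x' y' : A, A.subtype x' = x ∧ A.subtype y' = y := by
  have hy : y ∈ A := by
    by_contra hy
    exact ((kerRed_some_iff_y (isIntegralOver_map W₀) h).mpr hy) hx
  exact ⟨⟨x, hx⟩, ⟨y, hy⟩, rfl, rfl⟩

omit [DecidableEq K] [DecidableEq k] [IsLocalHom π] in
/-- The points with nonsingular reduction are stable under negation. -/
theorem isE0_neg {P : (W₀.map A.subtype).toAffine.Point}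
    (hP : IsE0 π (W₀.map A.subtype).toAffine (W₀.map π).toAffine P) :
    IsE0 π (W₀.map A.subtype).toAffine (W₀.map π).toAffine (-P) := by
  rcases P with _ | ⟨x, y, h⟩
  · exact hP
  · rw [Point.neg_some]
    intro hx
    obtain ⟨x', y', rfl, rfl⟩ := exists_lift_of_mem W₀ h hx
    have n1 := hP hx
    rw [res_subtype, res_subtype] at n1
    rw [map_negY, res_subtype, res_subtype, ← map_negY]
    exact (nonsingular_neg _ _).mpr n1

omit [DecidableEq K] [DecidableEq k] [IsLocalHom π] in
/-- The reduction map commutes with negation. -/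
theorem red_neg (P : (W₀.map A.subtype).toAffine.Point) :
    red π (W₀.map A.subtype).toAffine (W₀.map π).toAffine (-P) =
      -red π (W₀.map A.subtype).toAffine (W₀.map π).toAffine P := by
  rcases P with _ | ⟨x, y, h⟩
  · rfl
  · rw [Point.neg_some]
    by_cases hx : x ∈ A
    · obtain ⟨x', y', rfl, rfl⟩ := exists_lift_of_mem W₀ h hx
      by_cases n1 : (W₀.map π).toAffine.Nonsingular (π x') (π y')
      · have n1' : (W₀.map π).toAffine.Nonsingular (π x') (π (W₀.toAffine.negY x' y')) := by
          rw [← map_negY]; exact (nonsingular_neg _ _).mpr n1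
        have h' : (W₀.map A.subtype).toAffine.Nonsingular (A.subtype x')
            (A.subtype (W₀.toAffine.negY x' y')) := by
          rw [← map_negY]; exact (nonsingular_neg _ _).mpr h
        rw [some_congr ((nonsingular_neg _ _).mpr h) rfl (map_negY _ _ _) h',
          red_subtype π W₀ h' n1', red_subtype π W₀ h n1, Point.neg_some]
        exact some_congr _ rfl (map_negY _ _ _).symm _
      · rw [red_some_of_not_nonsingular π h (by rw [res_subtype, res_subtype]; exact n1),
          red_some_of_not_nonsingular π _ (by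
            rw [map_negY, res_subtype, res_subtype, ← map_negY, nonsingular_neg]; exact n1),
          Point.neg_zero]
    · rw [red_some_of_not_mem π _ hx, red_some_of_not_mem π _ hx, Point.neg_zero]

/-- **The reduction map is additive on points with nonsingular reduction**, and these points
are stable under addition. -/
theorem red_add {P Q : (W₀.map A.subtype).toAffine.Point}
    (hP : IsE0 π (W₀.map A.subtype).toAffine (W₀.map π).toAffine P)
    (hQ : IsE0 π (W₀.map A.subtype).toAffine (W₀.map π).toAffine Q) :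
    IsE0 π (W₀.map A.subtype).toAffine (W₀.map π).toAffine (P + Q) ∧
      red π (W₀.map A.subtype).toAffine (W₀.map π).toAffine (P + Q) =
        red π (W₀.map A.subtype).toAffine (W₀.map π).toAffine P +
          red π (W₀.map A.subtype).toAffine (W₀.map π).toAffine Q := by
  have hW := isIntegralOver_map W₀
  by_cases hP1 : KerRed A P
  · obtain ⟨r1, r2⟩ := red_add_of_kerRed_left π hW hP1 hQ
    exact ⟨r1, by rw [r2, red_of_kerRed π hP1, zero_add]⟩
  by_cases hQ1 : KerRed A Q
  · obtain ⟨r1, r2⟩ := red_add_of_kerRed_left π hW hQ1 hP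
    rw [add_comm] at r1 r2
    exact ⟨r1, by rw [r2, red_of_kerRed π hQ1, add_zero]⟩
  rcases P with _ | ⟨x1, y1, h1⟩
  · exact absurd (kerRed_zero A) hP1
  rcases Q with _ | ⟨x2, y2, h2⟩
  · exact absurd (kerRed_zero A) hQ1
  rw [kerRed_some, not_not] at hP1 hQ1
  obtain ⟨x1', y1', rfl, rfl⟩ := exists_lift_of_mem W₀ h1 hP1
  obtain ⟨x2', y2', rfl, rfl⟩ := exists_lift_of_mem W₀ h2 hQ1
  have n1 := hP hP1
  have n2 := hQ hQ1
  rw [res_subtype, res_subtype] at n1 n2
  by_cases hxy' : π x1' = π x2' ∧ π y1' = (W₀.map π).toAffine.negY (π x2') (π y2')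
  · have hker := kerRed_add_of_eq π W₀ h1 h2 n1 hxy'.1 hxy'.2
    refine ⟨isE0_of_kerRed π hker, ?_⟩
    rw [red_of_kerRed π hker, red_subtype π W₀ h1 n1, red_subtype π W₀ h2 n2,
      Point.add_of_Y_eq hxy'.1 hxy'.2]
  · obtain ⟨r1, r2⟩ := red_add_of_ne π W₀ h1 h2 n1 n2 hxy'
    exact ⟨r1, by rw [r2, red_subtype π W₀ h1 n1, red_subtype π W₀ h2 n2]⟩

/-- The subgroup `E₀` of points with nonsingular reduction. -/
def E0Subgroup : AddSubgroup (W₀.map A.subtype).toAffine.Point where
  carrier := {P : (W₀.map A.subtype).toAffine.Point |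
    IsE0 π (W₀.map A.subtype).toAffine (W₀.map π).toAffine P}
  zero_mem' := (isE0_zero π : IsE0 π (W₀.map A.subtype).toAffine (W₀.map π).toAffine 0)
  add_mem' := fun hP hQ => (red_add π W₀ hP hQ).1
  neg_mem' := fun hP => isE0_neg π W₀ hP

theorem mem_E0Subgroup (P : (W₀.map A.subtype).toAffine.Point) :
    P ∈ E0Subgroup π W₀ ↔ IsE0 π (W₀.map A.subtype).toAffine (W₀.map π).toAffine P := by
  exact Iff.rfl

/-- The reduction homomorphism on the subgroup `E₀` of points with nonsingular reduction. -/
noncomputable def redHom₀ : E0Subgroup π W₀ →+ (W₀.map π).toAffine.Point where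
  toFun P := red π (W₀.map A.subtype).toAffine (W₀.map π).toAffine P.1
  map_zero' := rfl
  map_add' P Q := (red_add π W₀ ((mem_E0Subgroup π W₀ _).mp P.2)
    ((mem_E0Subgroup π W₀ _).mp Q.2)).2

@[simp] theorem redHom₀_apply (P : E0Subgroup π W₀) :
    redHom₀ π W₀ P = red π (W₀.map A.subtype).toAffine (W₀.map π).toAffine P.1 := rfl

/-- The kernel of the reduction homomorphism on `E₀` is the kernel of reduction. -/
theorem redHom₀_eq_zero_iff (P : E0Subgroup π W₀) :
    redHom₀ π W₀ P = 0 ↔ KerRed A P.1 :=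
  red_eq_zero_iff π (isIntegralOver_map W₀) ((mem_E0Subgroup π W₀ _).mp P.2)

omit [DecidableEq K] [DecidableEq k] [IsLocalHom π] in
/-- If the reduced curve has nonzero discriminant, every point has nonsingular reduction. -/
theorem isE0_of_Δ_ne_zero (hΔ : (W₀.map π).Δ ≠ 0) (P : (W₀.map A.subtype).toAffine.Point) :
    IsE0 π (W₀.map A.subtype).toAffine (W₀.map π).toAffine P := by
  rcases P with _ | ⟨x, y, h⟩
  · trivial
  · intro hx
    obtain ⟨x', y', rfl, rfl⟩ := exists_lift_of_mem W₀ h hx
    rw [res_subtype, res_subtype]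
    exact (equation_iff_nonsingular_of_Δ_ne_zero hΔ).mp (equation_pi π W₀ h.left)

/-- **The reduction homomorphism** of a Weierstrass curve with good reduction. -/
noncomputable def redHom (hΔ : (W₀.map π).Δ ≠ 0) :
    (W₀.map A.subtype).toAffine.Point →+ (W₀.map π).toAffine.Point where
  toFun := red π (W₀.map A.subtype).toAffine (W₀.map π).toAffine
  map_zero' := rfl
  map_add' P Q := (red_add π W₀ (isE0_of_Δ_ne_zero π W₀ hΔ P) (isE0_of_Δ_ne_zero π W₀ hΔ Q)).2

@[simp] theorem redHom_apply (hΔ : (W₀.map π).Δ ≠ 0) (P : (W₀.map A.subtype).toAffine.Point) :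
    redHom π W₀ hΔ P = red π (W₀.map A.subtype).toAffine (W₀.map π).toAffine P := rfl

/-- The kernel of the reduction homomorphism is the kernel of reduction. -/
theorem redHom_eq_zero_iff (hΔ : (W₀.map π).Δ ≠ 0) (P : (W₀.map A.subtype).toAffine.Point) :
    redHom π W₀ hΔ P = 0 ↔ KerRed A P :=
  red_eq_zero_iff π (isIntegralOver_map W₀) (isE0_of_Δ_ne_zero π W₀ hΔ P)

theorem ker_redHom (hΔ : (W₀.map π).Δ ≠ 0) :
    (redHom π W₀ hΔ).ker = kerRedSubgroup (isIntegralOver_map W₀) := by
  ext P
  rw [AddMonoidHom.mem_ker, redHom_eq_zero_iff, mem_kerRedSubgroup]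

/-- The reduction homomorphism is injective on `n`-torsion when `n` is a unit of `A`. -/
theorem redHom_injOn_torsion (hΔ : (W₀.map π).Δ ≠ 0) {n : ℕ} (hn : A.valuation (n : K) = 1)
    {P Q : (W₀.map A.subtype).toAffine.Point} (hP : n • P = 0) (hQ : n • Q = 0)
    (h : redHom π W₀ hΔ P = redHom π W₀ hΔ Q) : P = Q := by
  have h0 : redHom π W₀ hΔ (P - Q) = 0 := by rw [map_sub, h, sub_self]
  rw [redHom_eq_zero_iff] at h0
  exact eq_of_kerRed_sub_of_nsmul_eq_zero (isIntegralOver_map W₀) hn h0 hP hQ

end Main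

section Interface

variable {K : Type*} [Field K] {A : ValuationSubring K} {k : Type*} [Field k]
  (π : A →+* k)

/-- `Wk` is the reduction of `W`: both come from a common Weierstrass curve over `A`. -/
def IsReduction (W : WeierstrassCurve K) (Wk : WeierstrassCurve k) : Prop :=
  ∃ W₀ : WeierstrassCurve A, W₀.map A.subtype = W ∧ W₀.map π = Wk

theorem isReduction_map (W₀ : WeierstrassCurve A) :
    IsReduction π (W₀.map A.subtype) (W₀.map π) := ⟨W₀, rfl, rfl⟩

/-- A curve over a ring `R₀` mapping to `A` gives a reduction pair. -/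
theorem isReduction_comp {R₀ : Type*} [CommRing R₀] (f : R₀ →+* A) (W' : WeierstrassCurve R₀) :
    IsReduction π (W'.map (A.subtype.comp f)) (W'.map (π.comp f)) :=
  ⟨W'.map f, by rw [WeierstrassCurve.map_map], by rw [WeierstrassCurve.map_map]⟩

variable {π} {W : WeierstrassCurve K} {Wk : WeierstrassCurve k}

theorem IsReduction.isIntegralOver (hR : IsReduction π W Wk) : IsIntegralOver A W.toAffine := by
  obtain ⟨W₀, rfl, rfl⟩ := hR
  exact isIntegralOver_map W₀

/-- A curve with integral coefficients has a reduction. -/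
theorem isReduction_of_isIntegralOver (π : A →+* k) (hW : IsIntegralOver A W.toAffine) :
    IsReduction π W ⟨res π W.a₁, res π W.a₂, res π W.a₃, res π W.a₄, res π W.a₆⟩ := by
  refine ⟨⟨⟨W.a₁, hW.a₁⟩, ⟨W.a₂, hW.a₂⟩, ⟨W.a₃, hW.a₃⟩, ⟨W.a₄, hW.a₄⟩, ⟨W.a₆, hW.a₆⟩⟩, ?_, ?_⟩
  · ext <;> rfl
  · ext
    · exact (res_of_mem π hW.a₁).symm
    · exact (res_of_mem π hW.a₂).symm
    · exact (res_of_mem π hW.a₃).symm
    · exact (res_of_mem π hW.a₄).symm
    · exact (res_of_mem π hW.a₆).symm

theorem IsReduction.isE0_neg (hR : IsReduction π W Wk) {P : W.toAffine.Point}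
    (hP : IsE0 π W.toAffine Wk.toAffine P) : IsE0 π W.toAffine Wk.toAffine (-P) := by
  obtain ⟨W₀, rfl, rfl⟩ := hR
  exact Fermat.Agent.Lib.EC.isE0_neg π W₀ hP

theorem IsReduction.red_neg (hR : IsReduction π W Wk) (P : W.toAffine.Point) :
    red π W.toAffine Wk.toAffine (-P) = -red π W.toAffine Wk.toAffine P := by
  obtain ⟨W₀, rfl, rfl⟩ := hR
  exact Fermat.Agent.Lib.EC.red_neg π W₀ P

theorem IsReduction.isE0_of_Δ_ne_zero (hR : IsReduction π W Wk) (hΔ : Wk.Δ ≠ 0)
    (P : W.toAffine.Point) : IsE0 π W.toAffine Wk.toAffine P := by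
  obtain ⟨W₀, rfl, rfl⟩ := hR
  exact Fermat.Agent.Lib.EC.isE0_of_Δ_ne_zero π W₀ hΔ P

variable [DecidableEq K] [DecidableEq k] [IsLocalHom π]

/-- The reduction map is additive on points with nonsingular reduction. -/
theorem IsReduction.red_add (hR : IsReduction π W Wk) {P Q : W.toAffine.Point}
    (hP : IsE0 π W.toAffine Wk.toAffine P) (hQ : IsE0 π W.toAffine Wk.toAffine Q) :
    IsE0 π W.toAffine Wk.toAffine (P + Q) ∧
      red π W.toAffine Wk.toAffine (P + Q) =
        red π W.toAffine Wk.toAffine P + red π W.toAffine Wk.toAffine Q := by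
  obtain ⟨W₀, rfl, rfl⟩ := hR
  exact Fermat.Agent.Lib.EC.red_add π W₀ hP hQ

/-- The reduction homomorphism of a curve with good reduction. -/
noncomputable def IsReduction.redHom (hR : IsReduction π W Wk) (hΔ : Wk.Δ ≠ 0) :
    W.toAffine.Point →+ Wk.toAffine.Point where
  toFun := red π W.toAffine Wk.toAffine
  map_zero' := rfl
  map_add' P Q := (hR.red_add (hR.isE0_of_Δ_ne_zero hΔ P) (hR.isE0_of_Δ_ne_zero hΔ Q)).2

@[simp] theorem IsReduction.redHom_apply (hR : IsReduction π W Wk) (hΔ : Wk.Δ ≠ 0)
    (P : W.toAffine.Point) : hR.redHom hΔ P = red π W.toAffine Wk.toAffine P := rfl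

theorem IsReduction.redHom_eq_zero_iff (hR : IsReduction π W Wk) (hΔ : Wk.Δ ≠ 0)
    (P : W.toAffine.Point) : hR.redHom hΔ P = 0 ↔ KerRed A P :=
  red_eq_zero_iff π hR.isIntegralOver (hR.isE0_of_Δ_ne_zero hΔ P)

theorem IsReduction.ker_redHom (hR : IsReduction π W Wk) (hΔ : Wk.Δ ≠ 0) :
    (hR.redHom hΔ).ker = kerRedSubgroup hR.isIntegralOver := by
  ext P
  rw [AddMonoidHom.mem_ker, hR.redHom_eq_zero_iff, mem_kerRedSubgroup]

/-- The reduction homomorphism is injective on `n`-torsion when `n` is a unit of `A`. -/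
theorem IsReduction.redHom_injOn_torsion (hR : IsReduction π W Wk) (hΔ : Wk.Δ ≠ 0) {n : ℕ}
    (hn : A.valuation (n : K) = 1) {P Q : W.toAffine.Point} (hP : n • P = 0) (hQ : n • Q = 0)
    (h : hR.redHom hΔ P = hR.redHom hΔ Q) : P = Q := by
  have h0 : hR.redHom hΔ (P - Q) = 0 := by rw [map_sub, h, sub_self]
  rw [hR.redHom_eq_zero_iff] at h0
  exact eq_of_kerRed_sub_of_nsmul_eq_zero hR.isIntegralOver hn h0 hP hQ

end Interface

end Fermat.Agent.Lib.EC
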