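import Mathlib

set_option autoImplicit false

/-!
# Kernel of reduction of a general Weierstrass curve

`K` is a field with a valuation `v` (in applications the valuation of a valuation subring `A`),
`W` a Weierstrass curve over `K` all of whose coefficients `a₁, a₂, a₃, a₄, a₆` are integral.
The *kernel of reduction* consists of the point at infinity and the affine points with
non-integral `x`-coordinate.  We prove by hand, in the chart `z = -x/y`, `w = -1/y` at infinity,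
that it is a subgroup on which `z(P + Q) = z(P) + z(Q) + O(c²)` (with `c` a bound for `z(P)`,
`z(Q)`), and deduce that it has no `n`-torsion when `n` is a unit for the valuation.

No restriction on the residue characteristic and no normal form of the equation is assumed.
-/

namespace Fermat.Agent.Lib.EC

open WeierstrassCurve WeierstrassCurve.Affine

namespace Kernel

section Valuation

variable {K : Type*} [Field K] {Γ₀ : Type*} [LinearOrderedCommGroupWithZero Γ₀]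
  (v : Valuation K Γ₀)

theorem val_mul_le {x y : K} {g h : Γ₀} (hx : v x ≤ g) (hy : v y ≤ h) : v (x * y) ≤ g * h := by
  rw [map_mul]; exact mul_le_mul' hx hy

theorem val_pow_le {x : K} {g : Γ₀} (hx : v x ≤ g) (n : ℕ) : v (x ^ n) ≤ g ^ n := by
  rw [map_pow]; exact pow_le_pow_left' hx n

theorem val_mul_le_of_le_one {x y : K} {g : Γ₀} (hx : v x ≤ 1) (hy : v y ≤ g) :
    v (x * y) ≤ g := by
  simpa using val_mul_le v hx hy

theorem pow_le_pow_of_le_one {c : Γ₀} (hc : c ≤ 1) {m n : ℕ} (h : m ≤ n) : c ^ n ≤ c ^ m :=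
  pow_le_pow_right_of_le_one' hc h

theorem pow_le_self {c : Γ₀} (hc : c ≤ 1) {n : ℕ} (hn : 1 ≤ n) : c ^ n ≤ c :=
  (pow_le_pow_of_le_one hc hn).trans (pow_one c).le

theorem pow_lt_self {c : Γ₀} (hc : c < 1) (h0 : c ≠ 0) {n : ℕ} (hn : 2 ≤ n) : c ^ n < c := by
  obtain ⟨k, rfl⟩ : ∃ k, n = k + 1 + 1 := ⟨n - 2, by omega⟩
  have h1 : c ^ (k + 1) < 1 := pow_lt_one₀ zero_le hc (by omega)
  calc c ^ (k + 1 + 1) = c ^ (k + 1) * c := pow_succ _ _
    _ < 1 * c := mul_lt_mul_of_pos_right h1 (zero_lt_iff.mpr h0)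
    _ = c := one_mul c

theorem val_natCast_le_one (n : ℕ) : v (n : K) ≤ 1 := by
  induction n with
  | zero => simp
  | succ k ih =>
    rw [Nat.cast_succ]
    exact v.map_add_le ih (map_one v).le

theorem val_two_le_one : v (2 : K) ≤ 1 := by
  have := val_natCast_le_one v 2
  simpa using this

theorem val_three_le_one : v (3 : K) ≤ 1 := by
  have := val_natCast_le_one v 3
  simpa using this

/-- The valuation of the right hand side of the Weierstrass equation at a non-integral `x`. -/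
theorem val_rhs {a2 a4 a6 x : K} (h2 : v a2 ≤ 1) (h4 : v a4 ≤ 1) (h6 : v a6 ≤ 1)
    (hx : 1 < v x) : v (x ^ 3 + a2 * x ^ 2 + a4 * x + a6) = v x ^ 3 := by
  have hx0 : v x ≠ 0 := (lt_trans zero_lt_one hx).ne'
  have hpos : 0 < v x := zero_lt_iff.mpr hx0
  have hx2 : v x ^ 2 < v x ^ 3 := by
    calc v x ^ 2 = v x ^ 2 * 1 := (mul_one _).symm
      _ < v x ^ 2 * v x := mul_lt_mul_of_pos_left hx (pow_pos hpos 2)
      _ = v x ^ 3 := (pow_succ _ _).symm
  have hx1 : v x < v x ^ 2 := by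
    calc v x = v x * 1 := (mul_one _).symm
      _ < v x * v x := mul_lt_mul_of_pos_left hx hpos
      _ = v x ^ 2 := (sq _).symm
  have e1 : v (a2 * x ^ 2) < v (x ^ 3) := by
    rw [map_mul, map_pow, map_pow]
    exact lt_of_le_of_lt (by simpa using mul_le_mul' h2 (le_refl (v x ^ 2))) hx2
  have e2 : v (a4 * x) < v (x ^ 3) := by
    rw [map_mul, map_pow]
    exact lt_of_le_of_lt (by simpa using mul_le_mul' h4 (le_refl (v x))) (hx1.trans hx2)
  have e3 : v a6 < v (x ^ 3) := by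
    rw [map_pow]
    exact lt_of_le_of_lt h6 (hx.trans (hx1.trans hx2))
  have s1 : v (x ^ 3 + a2 * x ^ 2) = v (x ^ 3) := v.map_add_eq_of_lt_left e1
  have s2 : v (x ^ 3 + a2 * x ^ 2 + a4 * x) = v (x ^ 3) := by
    rw [v.map_add_eq_of_lt_left (by rw [s1]; exact e2), s1]
  rw [v.map_add_eq_of_lt_left (by rw [s2]; exact e3), s2, map_pow]

/-- For a point in the kernel of reduction, `v x < v y`. -/
theorem val_x_lt_val_y {a1 a2 a3 a4 a6 x y : K} (h1 : v a1 ≤ 1) (h2 : v a2 ≤ 1) (h3 : v a3 ≤ 1)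
    (h4 : v a4 ≤ 1) (h6 : v a6 ≤ 1) (hx : 1 < v x)
    (h : y ^ 2 + a1 * x * y + a3 * y = x ^ 3 + a2 * x ^ 2 + a4 * x + a6) : v x < v y := by
  by_contra hle
  rw [not_lt] at hle
  have hx0 : v x ≠ 0 := (lt_trans zero_lt_one hx).ne'
  have hpos : 0 < v x := zero_lt_iff.mpr hx0
  have hr := val_rhs v h2 h4 h6 hx
  rw [← h] at hr
  have hl : v (y ^ 2 + a1 * x * y + a3 * y) ≤ v x ^ 2 := by
    refine v.map_add_le (v.map_add_le ?_ ?_) ?_
    · rw [map_pow]; exact pow_le_pow_left' hle 2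
    · rw [mul_assoc, sq]
      exact val_mul_le_of_le_one v h1 (val_mul_le v le_rfl hle)
    · refine val_mul_le_of_le_one v h3 (hle.trans ?_)
      calc v x = v x * 1 := (mul_one _).symm
        _ ≤ v x * v x := mul_le_mul' le_rfl hx.le
        _ = v x ^ 2 := (sq _).symm
  rw [hr] at hl
  have : v x ^ 2 < v x ^ 3 := by
    calc v x ^ 2 = v x ^ 2 * 1 := (mul_one _).symm
      _ < v x ^ 2 * v x := mul_lt_mul_of_pos_left hx (pow_pos hpos 2)
      _ = v x ^ 3 := (pow_succ _ _).symm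
  exact not_lt.mpr hl this

/-- For a point in the kernel of reduction, `v y ^ 2 = v x ^ 3`. -/
theorem val_y_sq {a1 a2 a3 a4 a6 x y : K} (h1 : v a1 ≤ 1) (h2 : v a2 ≤ 1) (h3 : v a3 ≤ 1)
    (h4 : v a4 ≤ 1) (h6 : v a6 ≤ 1) (hx : 1 < v x)
    (h : y ^ 2 + a1 * x * y + a3 * y = x ^ 3 + a2 * x ^ 2 + a4 * x + a6) :
    v y ^ 2 = v x ^ 3 := by
  have hxy := val_x_lt_val_y v h1 h2 h3 h4 h6 hx h
  have hy1 : 1 < v y := hx.trans hxy
  have hypos : 0 < v y := lt_trans zero_lt_one hy1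
  have hr := val_rhs v h2 h4 h6 hx
  rw [← h] at hr
  have e1 : v (a1 * x * y) < v (y ^ 2) := by
    rw [map_mul, map_mul, map_pow, sq]
    refine mul_lt_mul_of_pos_right ?_ hypos
    exact lt_of_le_of_lt (by simpa using mul_le_mul' h1 (le_refl (v x))) hxy
  have e2 : v (a3 * y) < v (y ^ 2) := by
    rw [map_mul, map_pow, sq]
    refine mul_lt_mul_of_pos_right ?_ hypos
    exact lt_of_le_of_lt h3 hy1
  have s1 : v (y ^ 2 + a1 * x * y) = v (y ^ 2) := v.map_add_eq_of_lt_left e1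
  rw [v.map_add_eq_of_lt_left (by rw [s1]; exact e2), s1, map_pow] at hr
  exact hr

theorem y_ne_zero {a1 a2 a3 a4 a6 x y : K} (h1 : v a1 ≤ 1) (h2 : v a2 ≤ 1) (h3 : v a3 ≤ 1)
    (h4 : v a4 ≤ 1) (h6 : v a6 ≤ 1) (hx : 1 < v x)
    (h : y ^ 2 + a1 * x * y + a3 * y = x ^ 3 + a2 * x ^ 2 + a4 * x + a6) : y ≠ 0 := by
  intro hy
  have := val_x_lt_val_y v h1 h2 h3 h4 h6 hx h
  rw [hy, map_zero] at this
  exact not_lt.mpr zero_le this

/-- `v z ^ 2 * v x = 1` for `z = -x/y`. -/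
theorem val_z_sq_mul {a1 a2 a3 a4 a6 x y : K} (h1 : v a1 ≤ 1) (h2 : v a2 ≤ 1) (h3 : v a3 ≤ 1)
    (h4 : v a4 ≤ 1) (h6 : v a6 ≤ 1) (hx : 1 < v x)
    (h : y ^ 2 + a1 * x * y + a3 * y = x ^ 3 + a2 * x ^ 2 + a4 * x + a6) :
    v (-x / y) ^ 2 * v x = 1 := by
  have hx0 : v x ≠ 0 := (lt_trans zero_lt_one hx).ne'
  have hsq := val_y_sq v h1 h2 h3 h4 h6 hx h
  have hy0 : v y ≠ 0 := by
    intro h0
    rw [h0, zero_pow two_ne_zero] at hsq
    exact (pow_ne_zero 3 hx0) hsq.symm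
  rw [map_div₀, Valuation.map_neg, div_pow, hsq]
  field_simp

theorem val_z_lt_one {a1 a2 a3 a4 a6 x y : K} (h1 : v a1 ≤ 1) (h2 : v a2 ≤ 1) (h3 : v a3 ≤ 1)
    (h4 : v a4 ≤ 1) (h6 : v a6 ≤ 1) (hx : 1 < v x)
    (h : y ^ 2 + a1 * x * y + a3 * y = x ^ 3 + a2 * x ^ 2 + a4 * x + a6) : v (-x / y) < 1 := by
  by_contra hle
  rw [not_lt] at hle
  have hm := val_z_sq_mul v h1 h2 h3 h4 h6 hx h
  have hge : 1 ≤ v (-x / y) ^ 2 := one_le_pow_of_one_le' hle 2
  have : 1 < v (-x / y) ^ 2 * v x := by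
    calc 1 < v x := hx
      _ = 1 * v x := (one_mul _).symm
      _ ≤ v (-x / y) ^ 2 * v x := mul_le_mul' hge le_rfl
  rw [hm] at this
  exact lt_irrefl _ this

theorem val_z_ne_zero {a1 a2 a3 a4 a6 x y : K} (h1 : v a1 ≤ 1) (h2 : v a2 ≤ 1) (h3 : v a3 ≤ 1)
    (h4 : v a4 ≤ 1) (h6 : v a6 ≤ 1) (hx : 1 < v x)
    (h : y ^ 2 + a1 * x * y + a3 * y = x ^ 3 + a2 * x ^ 2 + a4 * x + a6) : v (-x / y) ≠ 0 := by
  intro h0
  have hm := val_z_sq_mul v h1 h2 h3 h4 h6 hx h
  rw [h0, zero_pow two_ne_zero, zero_mul] at hm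
  exact zero_ne_one hm

/-- `v w = v z ^ 3` for `z = -x/y`, `w = -1/y`. -/
theorem val_w {a1 a2 a3 a4 a6 x y : K} (h1 : v a1 ≤ 1) (h2 : v a2 ≤ 1) (h3 : v a3 ≤ 1)
    (h4 : v a4 ≤ 1) (h6 : v a6 ≤ 1) (hx : 1 < v x)
    (h : y ^ 2 + a1 * x * y + a3 * y = x ^ 3 + a2 * x ^ 2 + a4 * x + a6) :
    v (-1 / y) = v (-x / y) ^ 3 := by
  have hx0 : v x ≠ 0 := (lt_trans zero_lt_one hx).ne'
  have hsq := val_y_sq v h1 h2 h3 h4 h6 hx h
  have hy0 : v y ≠ 0 := by
    intro h0
    rw [h0, zero_pow two_ne_zero] at hsq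
    exact (pow_ne_zero 3 hx0) hsq.symm
  have hpow : (v (-1 / y)) ^ 2 = (v (-x / y) ^ 3) ^ 2 := by
    rw [map_div₀, map_div₀, Valuation.map_neg, Valuation.map_neg, map_one, div_pow, div_pow,
      div_pow, ← pow_mul, ← pow_mul, one_pow]
    have : v y ^ (3 * 2) = (v y ^ 2) ^ 3 := by rw [← pow_mul, mul_comm]
    rw [this, hsq, ← pow_mul]
    field_simp
    rw [← pow_add]
  exact pow_left_injective two_ne_zero hpow

/-- The denominator of the chart slope is a unit. -/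
theorem val_D {a1 a2 a3 a4 a6 z1 w1 w2 : K} {c : Γ₀} (h1 : v a1 ≤ 1) (h2 : v a2 ≤ 1)
    (h3 : v a3 ≤ 1) (h4 : v a4 ≤ 1) (h6 : v a6 ≤ 1) (hc : c < 1)
    (vz1 : v z1 ≤ c) (vw1 : v w1 ≤ c ^ 3) (vw2 : v w2 ≤ c ^ 3) :
    v (1 - a1 * z1 - a2 * z1 ^ 2 - a3 * (w1 + w2) - a4 * z1 * (w1 + w2)
      - a6 * (w2 ^ 2 + w1 * w2 + w1 ^ 2)) = 1 := by
  have hc1 : c ≤ 1 := hc.le
  have hw1 : v w1 ≤ c := vw1.trans (pow_le_self hc1 (by norm_num))
  have hw2 : v w2 ≤ c := vw2.trans (pow_le_self hc1 (by norm_num))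
  have hww : v (w1 + w2) ≤ c := v.map_add_le hw1 hw2
  have hlt : v (a1 * z1 + a2 * z1 ^ 2 + a3 * (w1 + w2) + a4 * z1 * (w1 + w2)
      + a6 * (w2 ^ 2 + w1 * w2 + w1 ^ 2)) < 1 := by
    refine lt_of_le_of_lt (v.map_add_le (g := c) (v.map_add_le (v.map_add_le
      (v.map_add_le ?_ ?_) ?_) ?_) ?_) hc
    · exact val_mul_le_of_le_one v h1 vz1
    · refine val_mul_le_of_le_one v h2 ?_
      exact (val_pow_le v vz1 2).trans (pow_le_self hc1 (by norm_num))
    · exact val_mul_le_of_le_one v h3 hww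
    · rw [mul_assoc]
      refine val_mul_le_of_le_one v h4 ?_
      exact val_mul_le_of_le_one v (vz1.trans hc1) hww
    · refine val_mul_le_of_le_one v h6 ?_
      refine v.map_add_le (v.map_add_le ?_ ?_) ?_
      · exact (val_pow_le v hw2 2).trans (pow_le_self hc1 (by norm_num))
      · exact val_mul_le_of_le_one v (hw1.trans hc1) hw2
      · exact (val_pow_le v hw1 2).trans (pow_le_self hc1 (by norm_num))
  have : 1 - a1 * z1 - a2 * z1 ^ 2 - a3 * (w1 + w2) - a4 * z1 * (w1 + w2)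
      - a6 * (w2 ^ 2 + w1 * w2 + w1 ^ 2) =
      1 - (a1 * z1 + a2 * z1 ^ 2 + a3 * (w1 + w2) + a4 * z1 * (w1 + w2)
      + a6 * (w2 ^ 2 + w1 * w2 + w1 ^ 2)) := by ring
  rw [this]
  exact v.map_one_sub_of_lt hlt

/-- The numerator of the chart slope has valuation at most `c ^ 2`. -/
theorem val_N {a1 a2 a4 z1 z2 w2 : K} {c : Γ₀} (h1 : v a1 ≤ 1) (h2 : v a2 ≤ 1)
    (h4 : v a4 ≤ 1) (hc : c < 1) (vz1 : v z1 ≤ c) (vz2 : v z2 ≤ c) (vw2 : v w2 ≤ c ^ 3) :
    v (z2 ^ 2 + z1 * z2 + z1 ^ 2 + a1 * w2 + a2 * (z1 + z2) * w2 + a4 * w2 ^ 2) ≤ c ^ 2 := by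
  have hc1 : c ≤ 1 := hc.le
  have hw2' : v w2 ≤ c ^ 2 := vw2.trans (pow_le_pow_of_le_one hc1 (by norm_num))
  refine v.map_add_le (v.map_add_le (v.map_add_le (v.map_add_le (v.map_add_le ?_ ?_) ?_) ?_) ?_) ?_
  · exact val_pow_le v vz2 2
  · rw [sq]; exact val_mul_le v vz1 vz2
  · exact val_pow_le v vz1 2
  · exact val_mul_le_of_le_one v h1 hw2'
  · rw [mul_assoc]
    refine val_mul_le_of_le_one v h2 ?_
    refine val_mul_le_of_le_one v ?_ hw2'
    exact v.map_add_le (vz1.trans hc1) (vz2.trans hc1)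
  · refine val_mul_le_of_le_one v h4 ?_
    rw [sq]
    exact val_mul_le_of_le_one v (hw2'.trans (pow_le_one' hc1 2)) hw2'

/-- Core estimate in the `(z, w)`-chart: three collinear points, two of them near the origin.
The third point `(xS, L * xS + M)` is again near the origin and `z₁ + z₂ + z_S = O(c²)`. -/
theorem core {a1 a2 a3 a4 a6 x1 y1 x2 y2 xS L M z1 w1 z2 w2 : K} {c : Γ₀}
    (h1 : v a1 ≤ 1) (h2 : v a2 ≤ 1) (h3 : v a3 ≤ 1) (h4 : v a4 ≤ 1) (h6 : v a6 ≤ 1) (hc : c < 1)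
    (hM : M ≠ 0)
    (hl1 : y1 = L * x1 + M) (hl2 : y2 = L * x2 + M)
    (e1 : x1 + x2 + xS = L ^ 2 + a1 * L - a2)
    (e2 : x1 * x2 + x1 * xS + x2 * xS = a4 - 2 * L * M - a1 * M - a3 * L)
    (e3 : x1 * x2 * xS = M ^ 2 + a3 * M - a6)
    (hz1 : z1 = -x1 / y1) (hw1 : w1 = -1 / y1) (hz2 : z2 = -x2 / y2)
    (hy1 : y1 ≠ 0) (hy2 : y2 ≠ 0)
    (vz1 : v z1 ≤ c) (vz2 : v z2 ≤ c) (vw1 : v w1 ≤ c ^ 3) (vw2 : v w2 ≤ c ^ 3)
    (hlam : (-L / M) * (1 - a1 * z1 - a2 * z1 ^ 2 - a3 * (w1 + w2) - a4 * z1 * (w1 + w2)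
        - a6 * (w2 ^ 2 + w1 * w2 + w1 ^ 2)) =
       z2 ^ 2 + z1 * z2 + z1 ^ 2 + a1 * w2 + a2 * (z1 + z2) * w2 + a4 * w2 ^ 2) :
    L * xS + M ≠ 0 ∧ v (-1 / (L * xS + M)) ≤ c ^ 3 ∧
      v (xS / (L * xS + M) - z1 - z2) ≤ c ^ 2 := by
  have hc1 : c ≤ 1 := hc.le
  have hc2 : c ^ 2 ≤ c := pow_le_self hc1 (by norm_num)
  have hc2' : c ^ 2 < 1 := lt_of_le_of_lt hc2 hc
  have hc32 : c ^ 3 ≤ c ^ 2 := pow_le_pow_of_le_one hc1 (by norm_num)
  have hD := val_D v h1 h2 h3 h4 h6 hc vz1 vw1 vw2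
  have hN := val_N v h1 h2 h4 hc vz1 vz2 vw2
  have hlam' : v (-L / M) ≤ c ^ 2 := by
    have := congrArg v hlam
    rw [map_mul, hD, mul_one] at this
    rw [this]; exact hN
  have hlam1 : v (-L / M) ≤ 1 := hlam'.trans (pow_le_one' hc1 2)
  have hnu : -1 / M = w1 - (-L / M) * z1 := by
    rw [hz1, hw1]
    field_simp
    linear_combination (-1 : K) * hl1
  have hnu' : v (-1 / M) ≤ c ^ 3 := by
    rw [hnu]
    refine v.map_sub_le vw1 ?_
    have : c ^ 3 = c ^ 2 * c := pow_succ c 2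
    rw [this]
    exact val_mul_le v hlam' vz1
  have hnu2 : v (-1 / M) ≤ c ^ 2 := hnu'.trans hc32
  -- the leading coefficient of the cubic on the line is a unit
  have hu : v (1 + (a2 * (-L / M) + a4 * (-L / M) ^ 2 + a6 * (-L / M) ^ 3)) = 1 := by
    refine v.map_one_add_of_lt (lt_of_le_of_lt (v.map_add_le (g := c ^ 2)
      (v.map_add_le ?_ ?_) ?_) hc2')
    · exact val_mul_le_of_le_one v h2 hlam'
    · refine val_mul_le_of_le_one v h4 ?_
      rw [sq]
      exact val_mul_le_of_le_one v hlam1 hlam'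
    · refine val_mul_le_of_le_one v h6 ?_
      rw [pow_succ, sq]
      exact val_mul_le_of_le_one v (val_mul_le_of_le_one v hlam1 hlam1) hlam'
  have hu0 : 1 + (a2 * (-L / M) + a4 * (-L / M) ^ 2 + a6 * (-L / M) ^ 3) ≠ 0 := by
    intro h0; rw [h0, map_zero] at hu; exact zero_ne_one hu
  have hQ : M ^ 3 - a2 * L * M ^ 2 + a4 * L ^ 2 * M - a6 * L ^ 3 =
      M ^ 3 * (1 + (a2 * (-L / M) + a4 * (-L / M) ^ 2 + a6 * (-L / M) ^ 3)) := by
    field_simp
    ring
  have hQ0 : M ^ 3 - a2 * L * M ^ 2 + a4 * L ^ 2 * M - a6 * L ^ 3 ≠ 0 := by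
    rw [hQ]; exact mul_ne_zero (pow_ne_zero 3 hM) hu0
  have hprod : y1 * y2 * (L * xS + M) =
      M ^ 3 - a2 * L * M ^ 2 + a4 * L ^ 2 * M - a6 * L ^ 3 := by
    rw [hl1, hl2]
    linear_combination L ^ 3 * e3 + L ^ 2 * M * e2 + L * M ^ 2 * e1
  have hyT : L * xS + M ≠ 0 := by
    intro h0
    rw [h0, mul_zero] at hprod
    exact hQ0 hprod.symm
  have hsum : x1 * y2 * (L * xS + M) + x2 * y1 * (L * xS + M) + xS * y1 * y2 =
      a3 * L ^ 2 * M - 3 * a6 * L ^ 2 + 2 * a4 * L * M - a1 * L * M ^ 2 - a2 * M ^ 2 := by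
    rw [hl1, hl2]
    linear_combination 3 * L ^ 2 * e3 + 2 * L * M * e2 + M ^ 2 * e1
  have hvieta : xS / (L * xS + M) - z1 - z2 =
      (a1 * (-L / M) + a2 * (-1 / M) + a3 * (-L / M) ^ 2 + 2 * a4 * (-L / M) * (-1 / M)
        + 3 * a6 * (-L / M) ^ 2 * (-1 / M)) /
      (1 + (a2 * (-L / M) + a4 * (-L / M) ^ 2 + a6 * (-L / M) ^ 3)) := by
    rw [hz1, hz2]
    have hfrac : xS / (L * xS + M) - -x1 / y1 - -x2 / y2 =
        (x1 * y2 * (L * xS + M) + x2 * y1 * (L * xS + M) + xS * y1 * y2) /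
          (y1 * y2 * (L * xS + M)) := by
      generalize L * xS + M = yT at hyT
      field_simp
      ring
    rw [hfrac, hsum, hprod, hQ]
    field_simp
    ring
  have hA2 : v (a1 * (-L / M) + a2 * (-1 / M) + a3 * (-L / M) ^ 2 + 2 * a4 * (-L / M) * (-1 / M)
        + 3 * a6 * (-L / M) ^ 2 * (-1 / M)) ≤ c ^ 2 := by
    refine v.map_add_le (v.map_add_le (v.map_add_le (v.map_add_le ?_ ?_) ?_) ?_) ?_
    · exact val_mul_le_of_le_one v h1 hlam'
    · exact val_mul_le_of_le_one v h2 hnu2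
    · refine val_mul_le_of_le_one v h3 ?_
      rw [sq]
      exact val_mul_le_of_le_one v hlam1 hlam'
    · rw [mul_assoc, mul_assoc]
      refine val_mul_le_of_le_one v (val_two_le_one v) ?_
      refine val_mul_le_of_le_one v h4 ?_
      exact val_mul_le_of_le_one v hlam1 hnu2
    · rw [mul_assoc, mul_assoc]
      refine val_mul_le_of_le_one v (val_three_le_one v) ?_
      refine val_mul_le_of_le_one v h6 ?_
      refine val_mul_le_of_le_one v ?_ hnu2
      rw [sq]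
      exact val_mul_le_of_le_one v hlam1 hlam1
  have hdiff : v (xS / (L * xS + M) - z1 - z2) ≤ c ^ 2 := by
    rw [hvieta, map_div₀, hu, div_one]
    exact hA2
  refine ⟨hyT, ?_, hdiff⟩
  have hzT : v (xS / (L * xS + M)) ≤ c := by
    have : xS / (L * xS + M) = (xS / (L * xS + M) - z1 - z2) + z1 + z2 := by ring
    rw [this]
    exact v.map_add_le (v.map_add_le (hdiff.trans hc2) vz1) vz2
  have hwT : -1 / (L * xS + M) = (-L / M) * (-(xS / (L * xS + M))) + (-1 / M) := by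
    field_simp
    ring
  rw [hwT]
  refine v.map_add_le ?_ hnu'
  have : c ^ 3 = c ^ 2 * c := pow_succ c 2
  rw [this, Valuation.map_mul, Valuation.map_neg]
  exact mul_le_mul' hlam' hzT

/-- Passing from the third point of intersection to its negative. -/
theorem core_neg {a1 a3 xS yS z1 z2 : K} {c : Γ₀} (h1 : v a1 ≤ 1) (h3 : v a3 ≤ 1) (hc : c < 1)
    (hyS : yS ≠ 0) (vz1 : v z1 ≤ c) (vz2 : v z2 ≤ c) (hw : v (-1 / yS) ≤ c ^ 3)
    (hz : v (xS / yS - z1 - z2) ≤ c ^ 2) :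
    yS + a1 * xS + a3 ≠ 0 ∧ v (xS / (yS + a1 * xS + a3) - z1 - z2) ≤ c ^ 2 := by
  have hc1 : c ≤ 1 := hc.le
  have hc2 : c ^ 2 ≤ c := pow_le_self hc1 (by norm_num)
  have hζ : v (xS / yS) ≤ c := by
    have : xS / yS = (xS / yS - z1 - z2) + z1 + z2 := by ring
    rw [this]
    exact v.map_add_le (v.map_add_le (hz.trans hc2) vz1) vz2
  have hw' : v (-1 / yS) ≤ c := hw.trans (pow_le_self hc1 (by norm_num))
  have hu : v (a1 * (xS / yS) - a3 * (-1 / yS)) ≤ c :=
    v.map_sub_le (val_mul_le_of_le_one v h1 hζ) (val_mul_le_of_le_one v h3 hw')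
  have hunit : v (1 + (a1 * (xS / yS) - a3 * (-1 / yS))) = 1 :=
    v.map_one_add_of_lt (lt_of_le_of_lt hu hc)
  have hunit0 : 1 + (a1 * (xS / yS) - a3 * (-1 / yS)) ≠ 0 := by
    intro h0; rw [h0, map_zero] at hunit; exact zero_ne_one hunit
  have hfac : yS + a1 * xS + a3 = yS * (1 + (a1 * (xS / yS) - a3 * (-1 / yS))) := by
    field_simp
    ring
  have hne : yS + a1 * xS + a3 ≠ 0 := by
    rw [hfac]; exact mul_ne_zero hyS hunit0
  refine ⟨hne, ?_⟩
  have hsplit : xS / (yS + a1 * xS + a3) - z1 - z2 =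
      (xS / yS - z1 - z2) -
        (xS / yS) * (a1 * (xS / yS) - a3 * (-1 / yS)) /
          (1 + (a1 * (xS / yS) - a3 * (-1 / yS))) := by
    rw [hfac]
    generalize (a1 * (xS / yS) - a3 * (-1 / yS)) = u at hunit0 ⊢
    field_simp
    ring
  rw [hsplit]
  refine v.map_sub_le hz ?_
  rw [map_div₀, hunit, div_one, sq]
  exact val_mul_le v hζ hu

/-- On an integral Weierstrass equation, a non-integral `y` forces a non-integral `x`. -/
theorem one_lt_val_x_of_one_lt_val_y {a1 a2 a3 a4 a6 x y : K} (h1 : v a1 ≤ 1) (h2 : v a2 ≤ 1)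
    (h3 : v a3 ≤ 1) (h4 : v a4 ≤ 1) (h6 : v a6 ≤ 1) (hy : 1 < v y)
    (h : y ^ 2 + a1 * x * y + a3 * y = x ^ 3 + a2 * x ^ 2 + a4 * x + a6) : 1 < v x := by
  by_contra hle
  rw [not_lt] at hle
  have hypos : 0 < v y := lt_trans zero_lt_one hy
  have hr : v (x ^ 3 + a2 * x ^ 2 + a4 * x + a6) ≤ 1 := by
    refine v.map_add_le (v.map_add_le (v.map_add_le ?_ ?_) ?_) h6
    · rw [map_pow]; exact pow_le_one' hle 3
    · refine val_mul_le_of_le_one v h2 ?_
      rw [map_pow]; exact pow_le_one' hle 2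
    · exact val_mul_le_of_le_one v h4 hle
  have e1 : v (a1 * x * y) < v (y ^ 2) := by
    rw [map_mul, map_mul, map_pow, sq]
    refine mul_lt_mul_of_pos_right ?_ hypos
    exact lt_of_le_of_lt (by simpa using mul_le_mul' h1 hle) hy
  have e2 : v (a3 * y) < v (y ^ 2) := by
    rw [map_mul, map_pow, sq]
    refine mul_lt_mul_of_pos_right ?_ hypos
    exact lt_of_le_of_lt h3 hy
  have s1 : v (y ^ 2 + a1 * x * y) = v (y ^ 2) := v.map_add_eq_of_lt_left e1
  have s2 : v (y ^ 2 + a1 * x * y + a3 * y) = v (y ^ 2) := by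
    rw [v.map_add_eq_of_lt_left (by rw [s1]; exact e2), s1]
  rw [h, map_pow] at s2
  rw [s2] at hr
  exact not_lt.mpr hr (one_lt_pow₀ hy (by norm_num))

/-- The tangent line at a point of the kernel of reduction does not pass through the origin. -/
theorem tangent_M_ne_zero {a1 a2 a3 a4 a6 x y L : K} (h1 : v a1 ≤ 1) (h2 : v a2 ≤ 1)
    (h3 : v a3 ≤ 1) (h4 : v a4 ≤ 1) (h6 : v a6 ≤ 1) (hx : 1 < v x)
    (h : y ^ 2 + a1 * x * y + a3 * y = x ^ 3 + a2 * x ^ 2 + a4 * x + a6)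
    (hL : L * (2 * y + a1 * x + a3) = 3 * x ^ 2 + 2 * a2 * x + a4 - a1 * y) :
    y - L * x ≠ 0 := by
  intro h0
  have hM : (y - L * x) * (2 * y + a1 * x + a3) = -(x ^ 3) + (a4 * x + 2 * a6 - a3 * y) := by
    linear_combination 2 * h - x * hL
  rw [h0, zero_mul] at hM
  have hx0 : v x ≠ 0 := (lt_trans zero_lt_one hx).ne'
  have hpos : 0 < v x := zero_lt_iff.mpr hx0
  have hxy := val_x_lt_val_y v h1 h2 h3 h4 h6 hx h
  have hy1 : 1 < v y := hx.trans hxy
  have hypos : 0 < v y := lt_trans zero_lt_one hy1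
  have hsq := val_y_sq v h1 h2 h3 h4 h6 hx h
  have hx13 : v x < v x ^ 3 := by
    calc v x = v x * 1 := (mul_one _).symm
      _ < v x * v x ^ 2 := mul_lt_mul_of_pos_left (one_lt_pow₀ hx (by norm_num)) hpos
      _ = v x ^ 3 := (pow_succ' _ _).symm
  have hy3 : v y < v x ^ 3 := by
    rw [← hsq]
    calc v y = v y * 1 := (mul_one _).symm
      _ < v y * v y := mul_lt_mul_of_pos_left hy1 hypos
      _ = v y ^ 2 := (sq _).symm
  have hsmall : v (a4 * x + 2 * a6 - a3 * y) < v (-(x ^ 3)) := by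
    rw [Valuation.map_neg, map_pow]
    refine lt_of_le_of_lt (v.map_sub_le (g := max (v x) (v y)) (v.map_add_le ?_ ?_) ?_)
      (max_lt hx13 hy3)
    · exact (val_mul_le_of_le_one v h4 le_rfl).trans (le_max_left _ _)
    · exact ((val_mul_le_of_le_one v (val_two_le_one v) h6).trans hx.le).trans (le_max_left _ _)
    · exact (val_mul_le_of_le_one v h3 le_rfl).trans (le_max_right _ _)
  have := v.map_add_eq_of_lt_left hsmall
  rw [← hM, map_zero, Valuation.map_neg, map_pow] at this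
  exact (pow_ne_zero 3 hx0) this.symm

end Valuation

section Algebra

variable {K : Type*} [Field K]

/-- The chart equation for `z = -x/y`, `w = -1/y`. -/
theorem chart_eq {a1 a2 a3 a4 a6 x y : K} (hy : y ≠ 0)
    (h : y ^ 2 + a1 * x * y + a3 * y = x ^ 3 + a2 * x ^ 2 + a4 * x + a6) :
    -1 / y = (-x / y) ^ 3 + a1 * (-x / y) * (-1 / y) + a2 * (-x / y) ^ 2 * (-1 / y)
      + a3 * (-1 / y) ^ 2 + a4 * (-x / y) * (-1 / y) ^ 2 + a6 * (-1 / y) ^ 3 := by
  field_simp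
  linear_combination (-1 : K) * h

/-- Tangent case: the chart slope of the tangent line. -/
theorem tangent_slope {a1 a2 a3 a4 a6 x1 y1 L z1 w1 : K}
    (h1 : y1 ^ 2 + a1 * x1 * y1 + a3 * y1 = x1 ^ 3 + a2 * x1 ^ 2 + a4 * x1 + a6)
    (hy1 : y1 ≠ 0) (hM0 : y1 - L * x1 ≠ 0)
    (hL : L * (2 * y1 + a1 * x1 + a3) = 3 * x1 ^ 2 + 2 * a2 * x1 + a4 - a1 * y1)
    (hz1 : z1 = -x1 / y1) (hw1 : w1 = -1 / y1) :
    (-L / (y1 - L * x1)) * (1 - a1 * z1 - a2 * z1 ^ 2 - a3 * (w1 + w1) - a4 * z1 * (w1 + w1)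
        - a6 * (w1 ^ 2 + w1 * w1 + w1 ^ 2)) =
       z1 ^ 2 + z1 * z1 + z1 ^ 2 + a1 * w1 + a2 * (z1 + z1) * w1 + a4 * w1 ^ 2 := by
  rw [hz1, hw1]
  rw [div_mul_eq_mul_div, div_eq_iff hM0]
  field_simp
  linear_combination (-3 * L) * h1 + y1 * hL

/-- Chord case: the chart slope of the chord. -/
theorem chord_slope {a1 a2 a3 a4 a6 x1 y1 x2 y2 z1 w1 z2 w2 : K}
    (h1 : y1 ^ 2 + a1 * x1 * y1 + a3 * y1 = x1 ^ 3 + a2 * x1 ^ 2 + a4 * x1 + a6)
    (h2 : y2 ^ 2 + a1 * x2 * y2 + a3 * y2 = x2 ^ 3 + a2 * x2 ^ 2 + a4 * x2 + a6)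
    (hy1 : y1 ≠ 0) (hy2 : y2 ≠ 0) (hx : x1 ≠ x2)
    (hz1 : z1 = -x1 / y1) (hw1 : w1 = -1 / y1) (hz2 : z2 = -x2 / y2) (hw2 : w2 = -1 / y2)
    (hD : 1 - a1 * z1 - a2 * z1 ^ 2 - a3 * (w1 + w2) - a4 * z1 * (w1 + w2)
        - a6 * (w2 ^ 2 + w1 * w2 + w1 ^ 2) ≠ 0) :
    y1 - (y1 - y2) / (x1 - x2) * x1 ≠ 0 ∧
    y2 = (y1 - y2) / (x1 - x2) * x2 + (y1 - (y1 - y2) / (x1 - x2) * x1) ∧
    (-((y1 - y2) / (x1 - x2)) / (y1 - (y1 - y2) / (x1 - x2) * x1)) *
        (1 - a1 * z1 - a2 * z1 ^ 2 - a3 * (w1 + w2) - a4 * z1 * (w1 + w2)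
        - a6 * (w2 ^ 2 + w1 * w2 + w1 ^ 2)) =
       z2 ^ 2 + z1 * z2 + z1 ^ 2 + a1 * w2 + a2 * (z1 + z2) * w2 + a4 * w2 ^ 2 := by
  have hx' : x1 - x2 ≠ 0 := sub_ne_zero.mpr hx
  have c1 : w1 = z1 ^ 3 + a1 * z1 * w1 + a2 * z1 ^ 2 * w1 + a3 * w1 ^ 2 + a4 * z1 * w1 ^ 2
      + a6 * w1 ^ 3 := by
    rw [hz1, hw1]; exact chart_eq hy1 h1
  have c2 : w2 = z2 ^ 3 + a1 * z2 * w2 + a2 * z2 ^ 2 * w2 + a3 * w2 ^ 2 + a4 * z2 * w2 ^ 2
      + a6 * w2 ^ 3 := by
    rw [hz2, hw2]; exact chart_eq hy2 h2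
  have key : (w2 - w1) * (1 - a1 * z1 - a2 * z1 ^ 2 - a3 * (w1 + w2) - a4 * z1 * (w1 + w2)
        - a6 * (w2 ^ 2 + w1 * w2 + w1 ^ 2)) =
      (z2 - z1) * (z2 ^ 2 + z1 * z2 + z1 ^ 2 + a1 * w2 + a2 * (z1 + z2) * w2 + a4 * w2 ^ 2) := by
    linear_combination c2 - c1
  set L := (y1 - y2) / (x1 - x2) with hLdef
  set M := y1 - L * x1 with hMdef
  have hl2 : y2 = L * x2 + M := by
    rw [hMdef, hLdef]
    field_simp
    ring
  have hl1 : y1 = L * x1 + M := by rw [hMdef]; ring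
  have hzz : (z2 - z1) * (y1 * y2) = M * (x1 - x2) := by
    rw [hz1, hz2]
    field_simp
    rw [hl1, hl2]
    ring
  have hww : (w2 - w1) * (y1 * y2) = L * (x2 - x1) := by
    rw [hw1, hw2]
    field_simp
    rw [hl1, hl2]
    ring
  have hM0 : M ≠ 0 := by
    intro h0
    have hz : z2 - z1 = 0 := by
      have := hzz
      rw [h0, zero_mul] at this
      exact (mul_eq_zero.mp this).resolve_right (mul_ne_zero hy1 hy2)
    have hw : w2 - w1 = 0 := by
      have := key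
      rw [hz, zero_mul] at this
      exact (mul_eq_zero.mp this).resolve_right hD
    have hL0 : L = 0 := by
      have := hww
      rw [hw, zero_mul] at this
      have h3 := (mul_eq_zero.mp this.symm)
      rcases h3 with h3 | h3
      · exact h3
      · exact absurd (sub_eq_zero.mp h3).symm hx
    apply hy1
    rw [hl1, hL0, h0]; ring
  refine ⟨hM0, hl2, ?_⟩
  have hzne : z2 - z1 ≠ 0 := by
    intro h0
    have := hzz
    rw [h0, zero_mul] at this
    exact (mul_ne_zero hM0 hx') this.symm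
  have hlam : w2 - w1 = (-L / M) * (z2 - z1) := by
    have hyy : y1 * y2 ≠ 0 := mul_ne_zero hy1 hy2
    have e1 : w2 - w1 = L * (x2 - x1) / (y1 * y2) := by
      rw [eq_div_iff hyy]; exact hww
    have e2 : z2 - z1 = M * (x1 - x2) / (y1 * y2) := by
      rw [eq_div_iff hyy]; exact hzz
    rw [e1, e2]
    field_simp
    ring
  have : (z2 - z1) * ((-L / M) * (1 - a1 * z1 - a2 * z1 ^ 2 - a3 * (w1 + w2)
        - a4 * z1 * (w1 + w2) - a6 * (w2 ^ 2 + w1 * w2 + w1 ^ 2))) =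
      (z2 - z1) * (z2 ^ 2 + z1 * z2 + z1 ^ 2 + a1 * w2 + a2 * (z1 + z2) * w2 + a4 * w2 ^ 2) := by
    rw [← key, hlam]; ring
  exact mul_left_cancel₀ hzne this

end Algebra

section Points

variable {K : Type*} [Field K] [DecidableEq K] {Γ₀ : Type*} [LinearOrderedCommGroupWithZero Γ₀]
  (v : Valuation K Γ₀)

/-- All coefficients of the Weierstrass equation are integral for the valuation `v`. -/
structure IsIntegralAt (W : Affine K) : Prop where
  a₁ : v W.a₁ ≤ 1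
  a₂ : v W.a₂ ≤ 1
  a₃ : v W.a₃ ≤ 1
  a₄ : v W.a₄ ≤ 1
  a₆ : v W.a₆ ≤ 1

theorem add_estimate_some {W : Affine K} (hW : IsIntegralAt v W) {c : Γ₀} (hc : c < 1)
    {x1 y1 x2 y2 : K}
    (h1 : W.Nonsingular x1 y1) (h2 : W.Nonsingular x2 y2)
    (hx1 : 1 < v x1) (hx2 : 1 < v x2) (hz1 : v (-x1 / y1) ≤ c) (hz2 : v (-x2 / y2) ≤ c)
    (hxy : ¬(x1 = x2 ∧ y1 = W.negY x2 y2)) :
    1 < v (W.addX x1 x2 (W.slope x1 x2 y1 y2)) ∧
    v (-(W.addX x1 x2 (W.slope x1 x2 y1 y2)) / (W.addY x1 x2 y1 (W.slope x1 x2 y1 y2))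
      - -x1 / y1 - -x2 / y2) ≤ c ^ 2 := by
  obtain ⟨g1, g2, g3, g4, g6⟩ := hW
  have q1 := (equation_iff x1 y1).mp h1.left
  have q2 := (equation_iff x2 y2).mp h2.left
  have hy1 : y1 ≠ 0 := y_ne_zero v g1 g2 g3 g4 g6 hx1 q1
  have hy2 : y2 ≠ 0 := y_ne_zero v g1 g2 g3 g4 g6 hx2 q2
  have vw1 : v (-1 / y1) ≤ c ^ 3 := by
    rw [val_w v g1 g2 g3 g4 g6 hx1 q1]; exact pow_le_pow_left' hz1 3
  have vw2 : v (-1 / y2) ≤ c ^ 3 := by
    rw [val_w v g1 g2 g3 g4 g6 hx2 q2]; exact pow_le_pow_left' hz2 3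
  -- Vieta relations from Mathlib
  have key := addPolynomial_slope h1.left h2.left hxy
  rw [addPolynomial_eq, neg_inj, Cubic.prod_X_sub_C_eq, Cubic.toPoly_injective] at key
  simp only [Cubic.mk.injEq] at key
  obtain ⟨-, k1, k2, k3⟩ := key
  -- the third point is on the curve
  have qT := (equation_iff _ _).mp (equation_negAdd h1.left h2.left hxy)
  simp only [addY, negAddY, negY] at qT ⊢
  generalize hL : W.slope x1 x2 y1 y2 = L at *
  generalize hxS : W.addX x1 x2 L = xS at *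
  set M := y1 - L * x1 with hM
  have e1 : x1 + x2 + xS = L ^ 2 + W.a₁ * L - W.a₂ := by linear_combination k1
  have e2 : x1 * x2 + x1 * xS + x2 * xS = W.a₄ - 2 * L * M - W.a₁ * M - W.a₃ * L := by
    rw [hM]; linear_combination (-1 : K) * k2
  have e3 : x1 * x2 * xS = M ^ 2 + W.a₃ * M - W.a₆ := by
    rw [hM]; linear_combination k3
  have hl1 : y1 = L * x1 + M := by rw [hM]; ring
  have hyT : L * (xS - x1) + y1 = L * xS + M := by rw [hM]; ring
  rw [hyT] at qT ⊢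
  -- the slope relation
  have hslope : M ≠ 0 ∧ y2 = L * x2 + M ∧
      (-L / M) * (1 - W.a₁ * (-x1 / y1) - W.a₂ * (-x1 / y1) ^ 2 - W.a₃ * (-1 / y1 + -1 / y2)
        - W.a₄ * (-x1 / y1) * (-1 / y1 + -1 / y2)
        - W.a₆ * ((-1 / y2) ^ 2 + (-1 / y1) * (-1 / y2) + (-1 / y1) ^ 2)) =
       (-x2 / y2) ^ 2 + (-x1 / y1) * (-x2 / y2) + (-x1 / y1) ^ 2 + W.a₁ * (-1 / y2) +
        W.a₂ * (-x1 / y1 + -x2 / y2) * (-1 / y2) + W.a₄ * (-1 / y2) ^ 2 := by
    by_cases hx : x1 = x2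
    · subst hx
      have hy : y1 ≠ W.negY x1 y2 := fun h => hxy ⟨rfl, h⟩
      have hyy : y1 = y2 := Y_eq_of_Y_ne h1.left h2.left rfl hy
      subst hyy
      rw [slope_of_Y_ne rfl hy] at hL
      simp only [negY] at hy hL
      have hs : y1 - (-y1 - W.a₁ * x1 - W.a₃) = 2 * y1 + W.a₁ * x1 + W.a₃ := by ring
      rw [hs] at hL
      have hs0 : 2 * y1 + W.a₁ * x1 + W.a₃ ≠ 0 := by
        intro h0
        apply hy
        linear_combination h0
      have hL' : L * (2 * y1 + W.a₁ * x1 + W.a₃) =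
          3 * x1 ^ 2 + 2 * W.a₂ * x1 + W.a₄ - W.a₁ * y1 := by
        rw [← hL, div_mul_cancel₀ _ hs0]
      have hM0 : y1 - L * x1 ≠ 0 := tangent_M_ne_zero v g1 g2 g3 g4 g6 hx1 q1 hL'
      exact ⟨hM0, hl1, tangent_slope q1 hy1 hM0 hL' rfl rfl⟩
    · rw [slope_of_X_ne hx] at hL
      have hD : 1 - W.a₁ * (-x1 / y1) - W.a₂ * (-x1 / y1) ^ 2 - W.a₃ * (-1 / y1 + -1 / y2)
          - W.a₄ * (-x1 / y1) * (-1 / y1 + -1 / y2)
          - W.a₆ * ((-1 / y2) ^ 2 + (-1 / y1) * (-1 / y2) + (-1 / y1) ^ 2) ≠ 0 := by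
        intro h0
        have := val_D v g1 g2 g3 g4 g6 hc hz1 vw1 vw2
        rw [h0, map_zero] at this
        exact zero_ne_one this
      obtain ⟨t1, t2, t3⟩ := chord_slope q1 q2 hy1 hy2 hx rfl rfl rfl rfl hD
      rw [hL] at t1 t2 t3
      exact ⟨t1, t2, t3⟩
  obtain ⟨hM0, hl2, hlam⟩ := hslope
  obtain ⟨r1, r2, r3⟩ := core v g1 g2 g3 g4 g6 hc hM0 hl1 hl2 e1 e2 e3 rfl rfl rfl hy1 hy2
    hz1 hz2 vw1 vw2 hlam
  obtain ⟨n1, n2⟩ := core_neg v g1 g3 hc r1 hz1 hz2 r2 r3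
  constructor
  · have h5 : v (-1 / (L * xS + M)) < 1 :=
      lt_of_le_of_lt r2 (lt_of_le_of_lt (pow_le_self hc.le (by norm_num : 1 ≤ 3)) hc)
    rw [map_div₀, Valuation.map_neg, map_one] at h5
    have h6 : v (L * xS + M) ≠ 0 := by
      rw [Ne, map_eq_zero]; exact r1
    rw [div_lt_one₀ (zero_lt_iff.mpr h6)] at h5
    exact one_lt_val_x_of_one_lt_val_y v g1 g2 g3 g4 g6 h5 qT
  · have : -xS / (-(L * xS + M) - W.a₁ * xS - W.a₃) = xS / (L * xS + M + W.a₁ * xS + W.a₃) := by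
      rw [← neg_div_neg_eq]
      congr 1 <;> ring
    rw [this]
    exact n2

/-- The chart coordinate `z = -x/y` of a point (and `0` for the point at infinity). -/
def zc {W : Affine K} : W.Point → K
  | .zero => 0
  | .some x y _ => -x / y

/-- Kernel of reduction with respect to a valuation: the point at infinity and the affine
points with non-integral `x`-coordinate. -/
def Near {W : Affine K} : W.Point → Prop
  | .zero => True
  | .some x _ _ => 1 < v x

omit [DecidableEq K] in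
@[simp] theorem zc_zero {W : Affine K} : zc (0 : W.Point) = 0 := rfl

omit [DecidableEq K] in
@[simp] theorem zc_some {W : Affine K} {x y : K} (h : W.Nonsingular x y) :
    zc (Point.some x y h) = -x / y := rfl

omit [DecidableEq K] in
@[simp] theorem near_zero {W : Affine K} : Near v (0 : W.Point) := trivial

omit [DecidableEq K] in
@[simp] theorem near_some {W : Affine K} {x y : K} (h : W.Nonsingular x y) :
    Near v (Point.some x y h) ↔ 1 < v x := Iff.rfl

omit [DecidableEq K] in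
theorem near_neg {W : Affine K} {P : W.Point} (hP : Near v P) : Near v (-P) := by
  rcases P with _ | ⟨x, y, h⟩
  · exact hP
  · rw [Point.neg_some, near_some]
    exact hP

theorem add_estimate {W : Affine K} (hW : IsIntegralAt v W)
    {c : Γ₀} (hc : c < 1) {P Q : W.Point} (hP : Near v P) (hQ : Near v Q)
    (hzP : v (zc P) ≤ c) (hzQ : v (zc Q) ≤ c) :
    Near v (P + Q) ∧ v (zc (P + Q) - zc P - zc Q) ≤ c ^ 2 := by
  rcases P with _ | ⟨x1, y1, h1⟩
  · rw [← Point.zero_def, zero_add]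
    refine ⟨hQ, ?_⟩
    simp
  · rcases Q with _ | ⟨x2, y2, h2⟩
    · rw [← Point.zero_def, add_zero]
      refine ⟨hP, ?_⟩
      simp
    · rw [near_some] at hP hQ
      rw [zc_some] at hzP hzQ
      by_cases hxy : x1 = x2 ∧ y1 = W.negY x2 y2
      · rw [Point.add_of_Y_eq hxy.1 hxy.2]
        refine ⟨near_zero v, ?_⟩
        obtain ⟨g1, g2, g3, g4, g6⟩ := hW
        have q2 := (equation_iff x2 y2).mp h2.left
        have hy2 : y2 ≠ 0 := y_ne_zero v g1 g2 g3 g4 g6 hQ q2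
        have vw2 : v (-1 / y2) ≤ c ^ 3 := by
          rw [val_w v g1 g2 g3 g4 g6 hQ q2]; exact pow_le_pow_left' hzQ 3
        have hz2' : v (x2 / y2) ≤ c := by
          have : x2 / y2 = -(-x2 / y2) := by ring
          rw [this, Valuation.map_neg]; exact hzQ
        have hz : v (x2 / y2 - x2 / y2 - 0) ≤ c ^ 2 := by
          simp
        obtain ⟨n1, n2⟩ := core_neg v g1 g3 hc hy2 hz2' (by simp : v (0 : K) ≤ c) vw2 hz
        have : zc (0 : W.Point) - zc (Point.some x1 y1 h1) - zc (Point.some x2 y2 h2) =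
            -(x2 / (y2 + W.a₁ * x2 + W.a₃) - x2 / y2 - 0) := by
          rw [zc_zero, zc_some, zc_some, hxy.1, hxy.2]
          simp only [negY]
          have e : -y2 - W.a₁ * x2 - W.a₃ = -(y2 + W.a₁ * x2 + W.a₃) := by ring
          rw [e, neg_div_neg_eq]
          ring
        rw [this, Valuation.map_neg]
        exact n2
      · rw [Point.add_some hxy, near_some, zc_some, zc_some, zc_some]
        exact add_estimate_some v hW hc h1 h2 hP hQ hzP hzQ hxy

omit [DecidableEq K] in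
/-- The chart coordinate of a point in the kernel of reduction has valuation `< 1`. -/
theorem val_zc_lt_one {W : Affine K} (hW : IsIntegralAt v W)
    {P : W.Point} (hP : Near v P) : v (zc P) < 1 := by
  obtain ⟨g1, g2, g3, g4, g6⟩ := hW
  rcases P with _ | ⟨x, y, h⟩
  · rw [← Point.zero_def, zc_zero, map_zero]; exact zero_lt_one
  · rw [zc_some]
    exact val_z_lt_one v g1 g2 g3 g4 g6 hP ((equation_iff x y).mp h.left)

omit [DecidableEq K] in
theorem val_zc_ne_zero {W : Affine K} (hW : IsIntegralAt v W)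
    {P : W.Point} (hP : Near v P) (hP0 : P ≠ 0) : v (zc P) ≠ 0 := by
  obtain ⟨g1, g2, g3, g4, g6⟩ := hW
  rcases P with _ | ⟨x, y, h⟩
  · exact absurd Point.zero_def.symm hP0
  · rw [zc_some]
    exact val_z_ne_zero v g1 g2 g3 g4 g6 hP ((equation_iff x y).mp h.left)

/-- The kernel of reduction is stable under addition. -/
theorem near_add {W : Affine K} (hW : IsIntegralAt v W) {P Q : W.Point}
    (hP : Near v P) (hQ : Near v Q) : Near v (P + Q) := by
  have h1 := val_zc_lt_one v hW hP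
  have h2 := val_zc_lt_one v hW hQ
  have hc : max (v (zc P)) (v (zc Q)) < 1 := max_lt h1 h2
  exact (add_estimate v hW hc hP hQ (le_max_left _ _) (le_max_right _ _)).1

theorem nsmul_estimate {W : Affine K} (hW : IsIntegralAt v W)
    {P : W.Point} (hP : Near v P) (k : ℕ) :
    Near v (k • P) ∧ v (zc (k • P) - (k : K) * zc P) ≤ v (zc P) ^ 2 := by
  have hc : v (zc P) < 1 := val_zc_lt_one v hW hP
  have hc2 : v (zc P) ^ 2 ≤ v (zc P) := pow_le_self hc.le (by norm_num)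
  induction k with
  | zero =>
    rw [zero_smul]
    refine ⟨near_zero v, ?_⟩
    simp
  | succ k ih =>
    obtain ⟨ih1, ih2⟩ := ih
    rw [succ_nsmul]
    have hzk : v (zc (k • P)) ≤ v (zc P) := by
      have : zc (k • P) = (zc (k • P) - (k : K) * zc P) + (k : K) * zc P := by ring
      rw [this]
      refine v.map_add_le (ih2.trans hc2) ?_
      exact val_mul_le_of_le_one v (val_natCast_le_one v k) le_rfl
    obtain ⟨r1, r2⟩ := add_estimate v hW hc ih1 hP hzk le_rfl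
    refine ⟨r1, ?_⟩
    have : zc (k • P + P) - ((k + 1 : ℕ) : K) * zc P =
        (zc (k • P + P) - zc (k • P) - zc P) + (zc (k • P) - (k : K) * zc P) := by
      push_cast; ring
    rw [this]
    exact v.map_add_le r2 ih2

/-- The kernel of reduction has no `n`-torsion when `n` is a unit for the valuation. -/
theorem eq_zero_of_near_of_nsmul_eq_zero {W : Affine K} (hW : IsIntegralAt v W) {n : ℕ}
    (hn : v (n : K) = 1) {P : W.Point} (hP : Near v P) (hnP : n • P = 0) : P = 0 := by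
  by_contra hP0
  have h1 := val_zc_lt_one v hW hP
  have h0 := val_zc_ne_zero v hW hP hP0
  have h3 := (nsmul_estimate v hW hP n).2
  rw [hnP, zc_zero, zero_sub, Valuation.map_neg, map_mul, hn, one_mul] at h3
  exact not_lt.mpr h3 (pow_lt_self h1 h0 (by norm_num))

end Points

end Kernel

section Main

variable {K : Type*} [Field K]

/-- All coefficients of the Weierstrass equation lie in the valuation subring `A`. -/
structure IsIntegralOver (A : ValuationSubring K) (W : Affine K) : Prop where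
  a₁ : W.a₁ ∈ A
  a₂ : W.a₂ ∈ A
  a₃ : W.a₃ ∈ A
  a₄ : W.a₄ ∈ A
  a₆ : W.a₆ ∈ A

theorem IsIntegralOver.isIntegralAt {A : ValuationSubring K} {W : Affine K}
    (hW : IsIntegralOver A W) : Kernel.IsIntegralAt A.valuation W :=
  ⟨(A.valuation_le_one_iff _).mpr hW.a₁, (A.valuation_le_one_iff _).mpr hW.a₂,
    (A.valuation_le_one_iff _).mpr hW.a₃, (A.valuation_le_one_iff _).mpr hW.a₄,
    (A.valuation_le_one_iff _).mpr hW.a₆⟩

/-- The kernel of reduction modulo the valuation subring `A`: the point at infinity together with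
the affine points whose `x`-coordinate is not in `A`. -/
def KerRed (A : ValuationSubring K) {W : Affine K} : W.Point → Prop
  | .zero => True
  | .some x _ _ => x ∉ A

@[simp] theorem kerRed_zero (A : ValuationSubring K) {W : Affine K} :
    KerRed A (0 : W.Point) := trivial

@[simp] theorem kerRed_some (A : ValuationSubring K) {W : Affine K} {x y : K}
    (h : W.Nonsingular x y) : KerRed A (Point.some x y h) ↔ x ∉ A := Iff.rfl

theorem kerRed_iff_near (A : ValuationSubring K) {W : Affine K} (P : W.Point) :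
    KerRed A P ↔ Kernel.Near A.valuation P := by
  rcases P with _ | ⟨x, y, h⟩
  · exact Iff.rfl
  · rw [Kernel.near_some, kerRed_some, ← not_le, A.valuation_le_one_iff]

/-- A point of the kernel of reduction is either `0` or has both coordinates outside `A`. -/
theorem kerRed_some_iff_y {A : ValuationSubring K} {W : Affine K} (hW : IsIntegralOver A W)
    {x y : K} (h : W.Nonsingular x y) : KerRed A (Point.some x y h) ↔ y ∉ A := by
  have hI := hW.isIntegralAt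
  obtain ⟨g1, g2, g3, g4, g6⟩ := hI
  have q := (equation_iff x y).mp h.left
  rw [kerRed_some, ← A.valuation_le_one_iff, ← A.valuation_le_one_iff, not_le, not_le]
  constructor
  · intro hx
    exact hx.trans (Kernel.val_x_lt_val_y A.valuation g1 g2 g3 g4 g6 hx q)
  · intro hy
    exact Kernel.one_lt_val_x_of_one_lt_val_y A.valuation g1 g2 g3 g4 g6 hy q

/-- The kernel of reduction is stable under negation. -/
theorem kerRed_neg (A : ValuationSubring K) {W : Affine K} {P : W.Point}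
    (hP : KerRed A P) : KerRed A (-P) := by
  rw [kerRed_iff_near] at hP ⊢
  exact Kernel.near_neg _ hP

variable [DecidableEq K]

/-- The kernel of reduction is stable under addition. -/
theorem kerRed_add {A : ValuationSubring K} {W : Affine K} (hW : IsIntegralOver A W)
    {P Q : W.Point} (hP : KerRed A P) (hQ : KerRed A Q) : KerRed A (P + Q) := by
  rw [kerRed_iff_near] at hP hQ ⊢
  exact Kernel.near_add _ hW.isIntegralAt hP hQ

/-- The kernel of reduction is stable under subtraction. -/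
theorem kerRed_sub {A : ValuationSubring K} {W : Affine K} (hW : IsIntegralOver A W)
    {P Q : W.Point} (hP : KerRed A P) (hQ : KerRed A Q) : KerRed A (P - Q) := by
  rw [sub_eq_add_neg]
  exact kerRed_add hW hP (kerRed_neg A hQ)

/-- The kernel of reduction as a subgroup of the group of points. -/
def kerRedSubgroup {A : ValuationSubring K} {W : Affine K} (hW : IsIntegralOver A W) :
    AddSubgroup W.Point where
  carrier := {P : W.Point | KerRed A P}
  zero_mem' := kerRed_zero (W := W) A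
  add_mem' := fun hP hQ => kerRed_add hW hP hQ
  neg_mem' := fun hP => kerRed_neg A hP

@[simp] theorem mem_kerRedSubgroup {A : ValuationSubring K} {W : Affine K}
    (hW : IsIntegralOver A W) (P : W.Point) : P ∈ kerRedSubgroup hW ↔ KerRed A P := by
  change P ∈ {P : W.Point | KerRed A P} ↔ KerRed A P
  exact Iff.rfl

/-- The kernel of reduction has no `n`-torsion when `n` is a unit of the valuation subring. -/
theorem eq_zero_of_kerRed_of_nsmul_eq_zero {A : ValuationSubring K} {W : Affine K}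
    (hW : IsIntegralOver A W) {n : ℕ} (hn : A.valuation (n : K) = 1) {P : W.Point}
    (hP : KerRed A P) (hnP : n • P = 0) : P = 0 := by
  rw [kerRed_iff_near] at hP
  exact Kernel.eq_zero_of_near_of_nsmul_eq_zero _ hW.isIntegralAt hn hP hnP

/-- Two torsion points of order dividing a unit `n` which differ by an element of the kernel of
reduction are equal. -/
theorem eq_of_kerRed_sub_of_nsmul_eq_zero {A : ValuationSubring K} {W : Affine K}
    (hW : IsIntegralOver A W) {n : ℕ} (hn : A.valuation (n : K) = 1) {P Q : W.Point}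
    (hPQ : KerRed A (P - Q)) (hnP : n • P = 0) (hnQ : n • Q = 0) : P = Q := by
  have : n • (P - Q) = 0 := by rw [smul_sub, hnP, hnQ, sub_zero]
  exact sub_eq_zero.mp (eq_zero_of_kerRed_of_nsmul_eq_zero hW hn hPQ this)

end Main

end Fermat.Agent.Lib.EC
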