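import Fermat.Agent.Lib.EC.Reduction.KernelGeneral

set_option autoImplicit false

/-!
# Valuation of the slope of a chord or tangent through integral points

`K` is a field with a valuation `v`, `W` a Weierstrass curve over `K` with integral coefficients.
For two affine points `(x₁, y₁)`, `(x₂, y₂)` with integral coordinates we analyse when the slope
`W.slope x₁ x₂ y₁ y₂` is integral.  With `d = y₁ - W.negY x₂ y₂` and
`N = x₁² + x₁x₂ + x₂² + a₂(x₁ + x₂) + a₄ - a₁y₁` one has `(y₁ - y₂) d = (x₁ - x₂) N`, so the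
slope equals `N / d` whenever `d ≠ 0`.

* `slope_eq_alt`: the slope is `N / d` when `d ≠ 0`.
* `one_lt_val_addX_iff`: the `x`-coordinate of the sum is non-integral iff the slope is.
* `one_lt_val_slope_of_red_eq_neg`: if the two points reduce to opposite points and the reduction
  is nonsingular, the slope is non-integral.
* `val_lt_one_of_one_lt_val_slope`: conversely a non-integral slope forces the reductions to be
  opposite.
* `val_slope_le_one`: the slope is integral when the reductions are not opposite.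
-/

namespace Fermat.Agent.Lib.EC

open WeierstrassCurve WeierstrassCurve.Affine

namespace Kernel

section Algebra

variable {K : Type*} [Field K] [DecidableEq K]

omit [DecidableEq K] in
/-- The basic identity relating the two expressions of the slope. -/
theorem slope_identity {W : Affine K} {x1 y1 x2 y2 : K} (h1 : W.Equation x1 y1)
    (h2 : W.Equation x2 y2) :
    (y1 - y2) * (y1 - W.negY x2 y2) =
      (x1 - x2) * (x1 ^ 2 + x1 * x2 + x2 ^ 2 + W.a₂ * (x1 + x2) + W.a₄ - W.a₁ * y1) := by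
  have q1 := (equation_iff x1 y1).mp h1
  have q2 := (equation_iff x2 y2).mp h2
  simp only [negY]
  linear_combination q1 - q2

/-- The slope through two points of the curve equals `N / d` as soon as `d ≠ 0`. -/
theorem slope_eq_alt {W : Affine K} {x1 y1 x2 y2 : K} (h1 : W.Equation x1 y1)
    (h2 : W.Equation x2 y2) (hd : y1 - W.negY x2 y2 ≠ 0) :
    W.slope x1 x2 y1 y2 =
      (x1 ^ 2 + x1 * x2 + x2 ^ 2 + W.a₂ * (x1 + x2) + W.a₄ - W.a₁ * y1) /
        (y1 - W.negY x2 y2) := by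
  by_cases hx : x1 = x2
  · subst hx
    have hy : y1 ≠ W.negY x1 y2 := fun h => hd (sub_eq_zero.mpr h)
    have hyy : y1 = y2 := Y_eq_of_Y_ne h1 h2 rfl hy
    subst hyy
    rw [slope_of_Y_ne rfl hy]
    congr 1
    ring
  · rw [slope_of_X_ne hx]
    have hx' : x1 - x2 ≠ 0 := sub_ne_zero.mpr hx
    rw [div_eq_div_iff hx' hd, slope_identity h1 h2]
    ring

end Algebra

section Valuation

variable {K : Type*} [Field K] [DecidableEq K] {Γ₀ : Type*} [LinearOrderedCommGroupWithZero Γ₀]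
  (v : Valuation K Γ₀)

omit [DecidableEq K] in
/-- The `x`-coordinate of the sum is non-integral iff the slope is. -/
theorem one_lt_val_addX_iff {W : Affine K} (hW : IsIntegralAt v W) {x1 x2 L : K}
    (hx1 : v x1 ≤ 1) (hx2 : v x2 ≤ 1) : 1 < v (W.addX x1 x2 L) ↔ 1 < v L := by
  obtain ⟨g1, g2, -, -, -⟩ := hW
  constructor
  · intro h
    by_contra hL
    rw [not_lt] at hL
    refine not_le.mpr h ?_
    simp only [addX]
    refine v.map_sub_le (v.map_sub_le (v.map_sub_le (v.map_add_le ?_ ?_) g2) hx1) hx2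
    · rw [map_pow]; exact pow_le_one' hL 2
    · exact val_mul_le_of_le_one v g1 hL
  · intro hL
    have hpos : 0 < v L := lt_trans zero_lt_one hL
    have hsq : v L < v (L ^ 2) := by
      rw [map_pow, sq]
      calc v L = v L * 1 := (mul_one _).symm
        _ < v L * v L := mul_lt_mul_of_pos_left hL hpos
    have hrest : v (W.a₁ * L - W.a₂ - x1 - x2) ≤ v L := by
      refine v.map_sub_le (v.map_sub_le (v.map_sub_le ?_ (g2.trans hL.le)) (hx1.trans hL.le))
        (hx2.trans hL.le)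
      exact val_mul_le_of_le_one v g1 le_rfl
    have : W.addX x1 x2 L = L ^ 2 + (W.a₁ * L - W.a₂ - x1 - x2) := by
      simp only [addX]; ring
    rw [this, v.map_add_eq_of_lt_left (lt_of_le_of_lt hrest hsq)]
    exact hL.trans hsq

/-- If two integral points reduce to opposite points and the reduction is nonsingular, then the
slope of the line through them is non-integral. -/
theorem one_lt_val_slope_of_red_eq_neg {W : Affine K} (hW : IsIntegralAt v W)
    {x1 y1 x2 y2 : K} (h1 : W.Equation x1 y1) (h2 : W.Equation x2 y2)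
    (hx1 : v x1 ≤ 1) (hx2 : v x2 ≤ 1)
    (hxx : v (x1 - x2) < 1) (hyy : v (y1 - W.negY x2 y2) < 1)
    (hns : v (W.a₁ * y1 - (3 * x1 ^ 2 + 2 * W.a₂ * x1 + W.a₄)) = 1 ∨
      v (y1 - W.negY x1 y1) = 1)
    (hxy : ¬(x1 = x2 ∧ y1 = W.negY x2 y2)) :
    1 < v (W.slope x1 x2 y1 y2) := by
  obtain ⟨g1, g2, g3, g4, g6⟩ := hW
  by_cases hx : x1 = x2
  · subst hx
    have hy : y1 ≠ W.negY x1 y2 := fun h => hxy ⟨rfl, h⟩
    have hyy' : y1 = y2 := Y_eq_of_Y_ne h1 h2 rfl hy
    subst hyy'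
    rw [slope_of_Y_ne rfl hy]
    have hs0 : y1 - W.negY x1 y1 ≠ 0 := sub_ne_zero.mpr hy
    have hvs0 : v (y1 - W.negY x1 y1) ≠ 0 := by rwa [Ne, map_eq_zero]
    have hn : v (3 * x1 ^ 2 + 2 * W.a₂ * x1 + W.a₄ - W.a₁ * y1) = 1 := by
      rcases hns with hn | hs
      · rw [← hn, ← Valuation.map_neg]; congr 1; ring
      · exact absurd hs hyy.ne
    rw [map_div₀, hn, one_lt_div₀ (zero_lt_iff.mpr hvs0)]
    exact hyy
  · rw [slope_of_X_ne hx]
    have hx' : x1 - x2 ≠ 0 := sub_ne_zero.mpr hx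
    have hvx0 : v (x1 - x2) ≠ 0 := by rwa [Ne, map_eq_zero]
    have hid := slope_identity h1 h2
    rcases hns with hn | hs
    · -- the numerator `N` is a unit
      have hN : v (x1 ^ 2 + x1 * x2 + x2 ^ 2 + W.a₂ * (x1 + x2) + W.a₄ - W.a₁ * y1) = 1 := by
        have e : x1 ^ 2 + x1 * x2 + x2 ^ 2 + W.a₂ * (x1 + x2) + W.a₄ - W.a₁ * y1 =
            -(W.a₁ * y1 - (3 * x1 ^ 2 + 2 * W.a₂ * x1 + W.a₄)) +
              (x1 - x2) * (-(x2 + 2 * x1 + W.a₂)) := by ring
        have hsmall : v ((x1 - x2) * (-(x2 + 2 * x1 + W.a₂))) <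
            v (-(W.a₁ * y1 - (3 * x1 ^ 2 + 2 * W.a₂ * x1 + W.a₄))) := by
          rw [Valuation.map_neg, hn, mul_comm]
          refine lt_of_le_of_lt (val_mul_le_of_le_one v ?_ le_rfl) hxx
          rw [Valuation.map_neg]
          refine v.map_add_le (v.map_add_le hx2 ?_) g2
          exact val_mul_le_of_le_one v (val_two_le_one v) hx1
        rw [e, v.map_add_eq_of_lt_left hsmall, Valuation.map_neg, hn]
      have hd0 : y1 - W.negY x2 y2 ≠ 0 := by
        intro h0
        rw [h0, mul_zero] at hid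
        have : x1 ^ 2 + x1 * x2 + x2 ^ 2 + W.a₂ * (x1 + x2) + W.a₄ - W.a₁ * y1 = 0 :=
          (mul_eq_zero.mp hid.symm).resolve_left hx'
        rw [this, map_zero] at hN
        exact zero_ne_one hN
      have hvd0 : v (y1 - W.negY x2 y2) ≠ 0 := by rwa [Ne, map_eq_zero]
      have : (y1 - y2) / (x1 - x2) =
          (x1 ^ 2 + x1 * x2 + x2 ^ 2 + W.a₂ * (x1 + x2) + W.a₄ - W.a₁ * y1) /
            (y1 - W.negY x2 y2) := by
        rw [div_eq_div_iff hx' hd0, hid]; ring
      rw [this, map_div₀, hN, one_lt_div₀ (zero_lt_iff.mpr hvd0)]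
      exact hyy
    · -- `y1 - y2` is a unit
      have hY : v (y1 - y2) = 1 := by
        have e : y1 - y2 = (y1 - W.negY x1 y1) +
            (-(y1 - W.negY x2 y2) - W.a₁ * (x1 - x2)) := by
          simp only [negY]; ring
        have hsmall : v (-(y1 - W.negY x2 y2) - W.a₁ * (x1 - x2)) < v (y1 - W.negY x1 y1) := by
          rw [hs]
          refine lt_of_le_of_lt (v.map_sub_le (g := max (v (y1 - W.negY x2 y2)) (v (x1 - x2)))
            ?_ ?_) (max_lt hyy hxx)
          · rw [Valuation.map_neg]; exact le_max_left _ _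
          · exact (val_mul_le_of_le_one v g1 le_rfl).trans (le_max_right _ _)
        rw [e, v.map_add_eq_of_lt_left hsmall, hs]
      rw [map_div₀, hY, one_lt_div₀ (zero_lt_iff.mpr hvx0)]
      exact hxx

/-- If the slope of the line through two integral points is non-integral, then the two points
reduce to opposite points. -/
theorem val_lt_one_of_one_lt_val_slope {W : Affine K} (hW : IsIntegralAt v W)
    {x1 y1 x2 y2 : K} (h1 : W.Equation x1 y1) (h2 : W.Equation x2 y2)
    (hx1 : v x1 ≤ 1) (hy1 : v y1 ≤ 1) (hx2 : v x2 ≤ 1) (hy2 : v y2 ≤ 1)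
    (hxy : ¬(x1 = x2 ∧ y1 = W.negY x2 y2)) (hL : 1 < v (W.slope x1 x2 y1 y2)) :
    v (x1 - x2) < 1 ∧ v (y1 - W.negY x2 y2) < 1 := by
  obtain ⟨g1, g2, g3, g4, g6⟩ := hW
  have hN : v (x1 ^ 2 + x1 * x2 + x2 ^ 2 + W.a₂ * (x1 + x2) + W.a₄ - W.a₁ * y1) ≤ 1 := by
    refine v.map_sub_le (v.map_add_le (v.map_add_le (v.map_add_le (v.map_add_le ?_ ?_) ?_) ?_)
      g4) ?_
    · rw [map_pow]; exact pow_le_one' hx1 2
    · exact val_mul_le_of_le_one v hx1 hx2
    · rw [map_pow]; exact pow_le_one' hx2 2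
    · exact val_mul_le_of_le_one v g2 (v.map_add_le hx1 hx2)
    · exact val_mul_le_of_le_one v g1 hy1
  by_cases hx : x1 = x2
  · subst hx
    have hy : y1 ≠ W.negY x1 y2 := fun h => hxy ⟨rfl, h⟩
    have hyy' : y1 = y2 := Y_eq_of_Y_ne h1 h2 rfl hy
    subst hyy'
    rw [slope_of_Y_ne rfl hy] at hL
    have hs0 : y1 - W.negY x1 y1 ≠ 0 := sub_ne_zero.mpr hy
    have hvs0 : v (y1 - W.negY x1 y1) ≠ 0 := by rwa [Ne, map_eq_zero]
    refine ⟨by simp, ?_⟩
    rw [map_div₀, one_lt_div₀ (zero_lt_iff.mpr hvs0)] at hL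
    refine lt_of_lt_of_le hL ?_
    have e : 3 * x1 ^ 2 + 2 * W.a₂ * x1 + W.a₄ - W.a₁ * y1 =
        x1 ^ 2 + x1 * x1 + x1 ^ 2 + W.a₂ * (x1 + x1) + W.a₄ - W.a₁ * y1 := by ring
    rw [e]; exact hN
  · rw [slope_of_X_ne hx] at hL
    have hx' : x1 - x2 ≠ 0 := sub_ne_zero.mpr hx
    have hvx0 : v (x1 - x2) ≠ 0 := by rwa [Ne, map_eq_zero]
    have hid := slope_identity h1 h2
    rw [map_div₀, one_lt_div₀ (zero_lt_iff.mpr hvx0)] at hL
    have hY : v (y1 - y2) ≤ 1 := v.map_sub_le hy1 hy2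
    refine ⟨lt_of_lt_of_le hL hY, ?_⟩
    by_contra hd
    rw [not_lt] at hd
    have h3 := congrArg v hid
    rw [map_mul, map_mul] at h3
    have h4 : v (y1 - y2) ≤ v (x1 - x2) := by
      calc v (y1 - y2) = v (y1 - y2) * 1 := (mul_one _).symm
        _ ≤ v (y1 - y2) * v (y1 - W.negY x2 y2) := mul_le_mul' le_rfl hd
        _ = v (x1 - x2) * v (x1 ^ 2 + x1 * x2 + x2 ^ 2 + W.a₂ * (x1 + x2) + W.a₄ - W.a₁ * y1) :=
          h3
        _ ≤ v (x1 - x2) * 1 := mul_le_mul' le_rfl hN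
        _ = v (x1 - x2) := mul_one _
    exact not_lt.mpr h4 hL

/-- The slope of the line through two integral points whose reductions are not opposite is
integral. -/
theorem val_slope_le_one {W : Affine K} (hW : IsIntegralAt v W)
    {x1 y1 x2 y2 : K} (h1 : W.Equation x1 y1) (h2 : W.Equation x2 y2)
    (hx1 : v x1 ≤ 1) (hy1 : v y1 ≤ 1) (hx2 : v x2 ≤ 1) (hy2 : v y2 ≤ 1)
    (h : v (x1 - x2) = 1 ∨ v (y1 - W.negY x2 y2) = 1) :
    v (W.slope x1 x2 y1 y2) ≤ 1 := by
  by_contra hL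
  rw [not_le] at hL
  have hxy : ¬(x1 = x2 ∧ y1 = W.negY x2 y2) := by
    rintro ⟨rfl, hy⟩
    rcases h with h | h
    · simp at h
    · rw [hy, sub_self, map_zero] at h; exact zero_ne_one h
  obtain ⟨r1, r2⟩ := val_lt_one_of_one_lt_val_slope v hW h1 h2 hx1 hy1 hx2 hy2 hxy hL
  rcases h with h | h
  · exact r1.ne h
  · exact r2.ne h

end Valuation

end Kernel

end Fermat.Agent.Lib.EC
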